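import Fermat.Agent.Dlog3.Main
import Fermat.Agent.S44w.PPow

/-!
# `(G2)` for every prime `p` (the form used by `S44w.level_lower`)
-/

set_option autoImplicit false

noncomputable section

namespace Fermat.Agent.Dlog3

/-- **(G2)** at every level `m` prime to `p`, `p` any prime. -/
theorem g2 {p : ℕ} {A : ValuationSubring (AlgebraicClosure ℚ)} (hp : p.Prime)
    (hA : A.LiesOverPrime p) {m : ℕ} [NeZero m] (hm : ¬ p ∣ m) :
    S44w.G2 (IsLocalRing.ResidueField A) p m :=
  fun _ hy hord => dlog_mem_span hp hA hm hy hord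

end Fermat.Agent.Dlog3

end
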