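import Mathlib
import Fermat.Agent.FG.IntClosure
import Fermat.Agent.ModFun.Rep
import Fermat.Agent.MW.Cusp
import Fermat.Agent.FF.AlgClosed
import Fermat.Agent.S21.PeriodMapLinear

/-!
# Expansions at the cusps and the place at infinity of `X₀(m)` over `ℚ̄`

The expansion at the cusp `γ ∞` defines the place at infinity only if `γ ∈ Γ₀(m)`.
Elements of the function field without poles outside `∞` are holomorphic functions on `ℍ`,
bounded at all cusps not equivalent to `∞`.
-/

set_option autoImplicit false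

open UpperHalfPlane hiding I
open ModularForm Filter Topology AlgebraicCurve CongruenceSubgroup Asymptotics
open scoped MatrixGroups Manifold

noncomputable section

namespace Fermat.Agent.Dlog3

open Fermat.Agent.JLevelOne Fermat.Agent.X0Emb Fermat.Agent.ModFun Fermat.Agent.FG ModularCurve

variable (m : ℕ) [NeZero m]

omit [NeZero m] in
theorem rep_iff {y : LaurentSeries KK} {F : ℍ → ℂ} :
    Rep m iota y F ↔ IsMF iota (Gamma0 m) 1 F y := by
  constructor
  · intro h
    exact ⟨h.mdiff, h.inv, h.growth, by simpa using h.lexp⟩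
  · intro h
    exact ⟨h.mdiff, h.inv, h.growth, by simpa using h.lexp⟩

/-- The two descriptions of the function field. -/
theorem FG_eq : FG iota (Gamma0 m) 1 = X0Emb.FF m := by
  apply le_antisymm
  · rw [FG, IntermediateField.adjoin_le_iff]
    rintro y ⟨F, hF⟩
    exact ((rep_iff m).mpr hF).mem_bar
  · intro y hy
    obtain ⟨u, v, U, V, hv, huv, hU, hV⟩ := exists_rep_frac_bar m iota hy
    have h1 : y = u / v := by rw [← huv, mul_div_cancel_right₀ _ hv]
    rw [h1]
    exact div_mem ((rep_iff m).mp hU).mem_FG ((rep_iff m).mp hV).mem_FG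

/-- The expansion at the cusp `γ ∞`. -/
def cE (γ : SL(2, ℤ)) : X0Emb.FF m →ₐ[KK] LaurentSeries KK :=
  (conjL iota 1 (H := m) (S21per.conj_T_pow_mem m γ)).comp
    (IntermediateField.inclusion (FG_eq m).ge)

variable {m}

theorem cE_isMF (γ : SL(2, ℤ)) {F : ℍ → ℂ} {y : X0Emb.FF m}
    (hF : IsMF iota (Gamma0 m) 1 F (y : LaurentSeries KK)) :
    IsMF iota (cG γ (Gamma0 m)) m (fun τ => F (γ • τ)) (cE m γ y) :=
  conjL_isMF (S21per.conj_T_pow_mem m γ) hF

theorem cE_jF (γ : SL(2, ℤ)) : cE m γ (jF m) = qExpand KK m (jqModC KK) := by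
  have h1 := cE_isMF γ (y := jF m) (F := jFun) (by
    rw [coe_jF]
    have := isMF_j (ι := iota) (Gamma0 m) 1
    rwa [jE, qExpand_one_apply] at this)
  have h2 : (fun τ => jFun (γ • τ)) = jFun := funext fun τ => jFun_smul γ τ
  rw [h2] at h1
  exact h1.unique (isMF_j (ι := iota) (Gamma0 m) m)

theorem mem_cuspInf {f : X0Emb.FF m} :
    f ∈ (MW.cuspInf m).toValuationSubring ↔
      (f : LaurentSeries KK) ∈ MW.nonnegSubring KK := Iff.rfl

theorem mem_nonneg_iff {f : LaurentSeries KK} :
    f ∈ MW.nonnegSubring KK ↔ ∀ n < 0, f.coeff n = 0 := by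
  rw [MW.mem_nonnegSubring]
  constructor
  · rintro (rfl | h) n hn
    · simp
    · exact HahnSeries.coeff_eq_zero_of_lt_order (by omega)
  · intro h
    by_cases h0 : f = 0
    · exact Or.inl h0
    · right
      by_contra hlt
      rw [not_le] at hlt
      exact HahnSeries.coeff_order_eq_zero.not.mpr h0 (h _ hlt)

/-- `qExpand` restricted to the function field. -/
def qE : X0Emb.FF m →+* LaurentSeries KK :=
  (qExpand KK m).comp (algebraMap (X0Emb.FF m) (LaurentSeries KK))

theorem qE_apply (f : X0Emb.FF m) : qE f = qExpand KK m (f : LaurentSeries KK) := rfl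

theorem qExpand_mem_nonneg {f : LaurentSeries KK} (hf : f ∈ MW.nonnegSubring KK) :
    qExpand KK m f ∈ MW.nonnegSubring KK := by
  rw [MW.mem_nonnegSubring] at hf ⊢
  rcases hf with rfl | hf
  · left; simp
  · right
    rw [order_qExpand]
    positivity

omit [NeZero m] in
theorem jF_ne_zero : jF m ≠ 0 := by
  intro h
  have := coe_jF m
  rw [h] at this
  have h2 := order_jqModC KK
  rw [← this] at h2
  simp at h2

theorem approx (γ : SL(2, ℤ)) (n : ℕ) : ∀ f : X0Emb.FF m,
    f ∈ (MW.cuspInf m).toValuationSubring → ∃ p r : X0Emb.FF m,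
      cE m γ p = qE p ∧ r ∈ (MW.cuspInf m).toValuationSubring ∧ f = p + (jF m)⁻¹ ^ n * r := by
  induction n with
  | zero =>
    intro f hf
    exact ⟨0, f, by simp, hf, by simp⟩
  | succ n ih =>
    intro f hf
    obtain ⟨p, r, hp, hr, hfr⟩ := ih f hf
    set c : KK := (r : LaurentSeries KK).coeff 0 with hc
    have hj0 := jF_ne_zero (m := m)
    refine ⟨p + (jF m)⁻¹ ^ n * algebraMap KK (X0Emb.FF m) c, (r - algebraMap KK (X0Emb.FF m) c) * jF m,
      ?_, ?_, ?_⟩
    · rw [map_add, map_add, map_mul, map_mul, hp, map_pow, map_pow, map_inv₀, map_inv₀, cE_jF,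
        AlgHom.commutes, qE_apply, qE_apply, coe_jF]
      congr 2
      have h1 : ((algebraMap KK (X0Emb.FF m) c : X0Emb.FF m) : LaurentSeries KK) =
          algebraMap KK (LaurentSeries KK) c := rfl
      rw [qE_apply, h1, algebraMap_laurentSeries_eq_single, qExpand_single]
      simp
    · rw [mem_cuspInf, mem_nonneg_iff] at hr ⊢
      set s : LaurentSeries KK := (r : LaurentSeries KK) - HahnSeries.C c with hs
      have hs' : ∀ n < 1, s.coeff n = 0 := by
        intro n hn
        rcases lt_or_eq_of_le (show n ≤ 0 by omega) with h | h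
        · rw [hs, HahnSeries.coeff_sub, hr n h, HahnSeries.C_apply,
            HahnSeries.coeff_single_of_ne h.ne, sub_zero]
        · subst h
          rw [hs, HahnSeries.coeff_sub, HahnSeries.C_apply, HahnSeries.coeff_single_same, ← hc,
            sub_self]
      have h1 : (((r - algebraMap KK (X0Emb.FF m) c) * jF m : X0Emb.FF m) : LaurentSeries KK) =
          s * jqModC KK := by
        rw [← coe_jF m]
        push_cast
        rw [algebraMap_laurentSeries_eq_single]
        rfl
      rw [h1]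
      by_cases hs0 : s = 0
      · intro n _
        simp [hs0]
      intro n hn
      apply HahnSeries.coeff_eq_zero_of_lt_order
      have hj : jqModC KK ≠ 0 := by
        rw [← coe_jF m]
        exact fun h => hj0 (Subtype.ext h)
      rw [HahnSeries.order_mul hs0 hj, order_jqModC]
      have h3 : 1 ≤ s.order := by
        by_contra h
        rw [not_le] at h
        exact HahnSeries.coeff_order_eq_zero.not.mpr hs0 (hs' _ h)
      omega
    · rw [hfr, pow_succ]
      have h1 : (jF m)⁻¹ * jF m = 1 := inv_mul_cancel₀ hj0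
      linear_combination (-(jF m)⁻¹ ^ n * (r - algebraMap KK (X0Emb.FF m) c)) * h1

theorem cE_eq_of_nonneg (γ : SL(2, ℤ))
    (h : ∀ f : X0Emb.FF m, f ∈ (MW.cuspInf m).toValuationSubring →
      cE m γ f ∈ MW.nonnegSubring KK) (f : X0Emb.FF m) : cE m γ f = qE f := by
  have key : ∀ f : X0Emb.FF m, f ∈ (MW.cuspInf m).toValuationSubring → cE m γ f = qE f := by
    intro f hf
    by_contra hne
    have hne' : cE m γ f - qE f ≠ 0 := sub_ne_zero.mpr hne
    set n : ℕ := ((cE m γ f - qE f).order + 1).toNat with hn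
    obtain ⟨p, r, hp, hr, hfr⟩ := approx γ n f hf
    have h1 : cE m γ f - qE f = (qExpand KK m (jqModC KK))⁻¹ ^ n * (cE m γ r - qE r) := by
      rw [hfr, map_add, map_add, hp, map_mul, map_mul, map_pow, map_pow, map_inv₀, map_inv₀,
        cE_jF, qE_apply (jF m), coe_jF]
      ring
    have h2 : cE m γ r - qE r ≠ 0 := by
      intro h0
      rw [h0, mul_zero] at h1
      exact hne' h1
    have h3 : (qExpand KK m (jqModC KK)) ≠ 0 := by
      intro h0
      rw [h0] at h1
      by_cases hn0 : n = 0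
      · have h4 := order_qExpand m (jqModC KK)
        rw [h0, order_jqModC] at h4
        have : (m : ℤ) ≠ 0 := by exact_mod_cast NeZero.ne m
        simp at h4
        omega
      · rw [inv_zero, zero_pow hn0, zero_mul] at h1
        exact hne' h1
    have h5 : (cE m γ f - qE f).order = n * m + (cE m γ r - qE r).order := by
      rw [h1, HahnSeries.order_mul (pow_ne_zero _ (inv_ne_zero h3)) h2, HahnSeries.order_pow,
        MW.order_inv', order_qExpand, order_jqModC, nsmul_eq_mul]
      ring
    have h6 : 0 ≤ (cE m γ r - qE r).order := by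
      have h7 : cE m γ r - qE r ∈ MW.nonnegSubring KK := sub_mem (h r hr) (qExpand_mem_nonneg hr)
      exact (MW.mem_nonnegSubring.mp h7).resolve_left h2
    have hm : (1 : ℤ) ≤ m := by
      have := Nat.pos_of_ne_zero (NeZero.ne m)
      exact_mod_cast this
    have h8 : (n : ℤ) ≤ n * m := le_mul_of_one_le_right (by positivity) hm
    have h9 : (cE m γ f - qE f).order + 1 ≤ n := Int.self_le_toNat _
    omega
  by_cases hf : f ∈ (MW.cuspInf m).toValuationSubring
  · exact key f hf
  · have h1 : f⁻¹ ∈ (MW.cuspInf m).toValuationSubring :=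
      ((MW.cuspInf m).toValuationSubring.mem_or_inv_mem f).resolve_left hf
    have h2 := key _ h1
    rw [map_inv₀, map_inv₀] at h2
    exact inv_injective h2

theorem mem_Gamma0_of_nonneg (γ : SL(2, ℤ))
    (h : ∀ f : X0Emb.FF m, f ∈ (MW.cuspInf m).toValuationSubring →
      cE m γ f ∈ MW.nonnegSubring KK) : γ ∈ Gamma0 m := by
  apply mem_Gamma0_of_jd
  have h1 : IsMF iota (Gamma0 m) 1 (jd m) (qExpand KK m (jqModC KK)) :=
    (rep_iff m).mp (Rep.jd m m dvd_rfl)
  have hmem : qExpand KK m (jqModC KK) ∈ X0Emb.FF m := by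
    rw [← FG_eq m]; exact h1.mem_FG
  have h2 := cE_isMF γ (y := ⟨_, hmem⟩) h1
  rw [cE_eq_of_nonneg γ h, qE_apply] at h2
  have h3 := h1.expand m
  rw [mul_one] at h3
  intro τ
  exact congrFun (h2.funext' h3) τ

/-- the valuation ring of the cusp `γ ∞` -/
def cV (m : ℕ) [NeZero m] (γ : SL(2, ℤ)) : ValuationSubring (X0Emb.FF m) :=
  { (MW.nonnegSubring KK).comap (cE m γ : X0Emb.FF m →+* LaurentSeries KK) with
    mem_or_inv_mem' := fun x => by
      by_cases hx : 0 ≤ (cE m γ x).order
      · left; right; exact hx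
      · right; right
        change 0 ≤ (cE m γ x⁻¹).order
        rw [map_inv₀, MW.order_inv']
        omega }

theorem mem_cV {γ : SL(2, ℤ)} {f : X0Emb.FF m} : f ∈ cV m γ ↔ cE m γ f ∈ MW.nonnegSubring KK :=
  Iff.rfl

theorem cV_algebraMap (γ : SL(2, ℤ)) (a : KK) : algebraMap KK (X0Emb.FF m) a ∈ cV m γ := by
  rw [mem_cV, AlgHom.commutes, algebraMap_laurentSeries_eq_single, MW.mem_nonnegSubring]
  by_cases ha : a = 0
  · left; simp [ha]
  · right; rw [HahnSeries.order_single ha]

theorem cV_ne_top (γ : SL(2, ℤ)) : cV m γ ≠ ⊤ := by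
  intro h
  have h1 : jF m ∈ cV m γ := h ▸ ValuationSubring.mem_top _
  rw [mem_cV, cE_jF, MW.mem_nonnegSubring] at h1
  have h4 := order_qExpand m (jqModC KK)
  rw [order_jqModC] at h4
  have hm : (0 : ℤ) < m := by exact_mod_cast Nat.pos_of_ne_zero (NeZero.ne m)
  rcases h1 with h1 | h1
  · rw [h1] at h4
    simp at h4
    omega
  · omega

/-- the place of the cusp `γ ∞` -/
def cP (m : ℕ) [NeZero m] (γ : SL(2, ℤ)) : Place KK (X0Emb.FF m) :=
  FF.placeOf (cV m γ) (cV_algebraMap γ) (cV_ne_top γ)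

theorem cP_ne {γ : SL(2, ℤ)} (hγ : γ ∉ Gamma0 m) : cP m γ ≠ MW.cuspInf m := by
  intro h
  apply hγ
  apply mem_Gamma0_of_nonneg
  intro f hf
  rw [← h] at hf
  exact hf

/-- Elements without poles outside infinity are integral over `K[j]`. -/
theorem isIntegral_of_regular {h : X0Emb.FF m}
    (hh : ∀ v : Place KK (X0Emb.FF m), v ≠ MW.cuspInf m → h ∈ v.toValuationSubring) :
    ∃ P : Polynomial (Polynomial KK), P.Monic ∧
      P.eval₂ (Polynomial.aeval (jE KK 1) : Polynomial KK →ₐ[KK] LaurentSeries KK).toRingHom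
        (h : LaurentSeries KK) = 0 := by
  let ψ : Polynomial KK →ₐ[KK] X0Emb.FF m := Polynomial.aeval (jF m)
  have h1 : IsIntegral ψ.range h := by
    rw [FF.isIntegral_iff_forall_place]
    intro w hw
    apply hh
    rintro rfl
    have h2 := hw (jF m) ⟨Polynomial.X, by simp [ψ]⟩
    rw [mem_cuspInf, coe_jF, MW.mem_nonnegSubring, order_jqModC] at h2
    rcases h2 with h2 | h2
    · have := order_jqModC KK
      rw [h2] at this
      simp at this
    · omega
  obtain ⟨P, hPm, hP⟩ := h1
  obtain ⟨Q, hQ, -, hQm⟩ := Polynomial.lifts_and_natDegree_eq_and_monic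
    (f := ψ.rangeRestrict.toRingHom) (p := P) (by
      rw [Polynomial.lifts_iff_coeff_lifts]
      intro n
      obtain ⟨q, hq⟩ := (P.coeff n).2
      exact ⟨q, Subtype.ext hq⟩) hPm
  refine ⟨Q, hQm, ?_⟩
  have h3 : Q.eval₂ ψ.toRingHom h = 0 := by
    rw [← hP, ← hQ, Polynomial.eval₂_map]
    congr 1
  have h4 := congrArg (algebraMap (X0Emb.FF m) (LaurentSeries KK)) h3
  rw [Polynomial.hom_eval₂, map_zero] at h4
  have h5 : (Polynomial.aeval (jE KK 1) : Polynomial KK →ₐ[KK] LaurentSeries KK).toRingHom =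
      (algebraMap (X0Emb.FF m) (LaurentSeries KK)).comp ψ.toRingHom := by
    refine Polynomial.ringHom_ext (fun a => ?_) ?_
    · simp [ψ]
    · simp only [AlgHom.toRingHom_eq_coe, RingHom.coe_comp, RingHom.coe_coe, Function.comp_apply,
        Polynomial.aeval_X, ψ]
      rw [jE, qExpand_one_apply]
      exact (coe_jF m).symm
  rw [h5]
  exact h4

/-- Elements without poles outside infinity are holomorphic functions. -/
theorem exists_isMF_of_regular {h : X0Emb.FF m}
    (hh : ∀ v : Place KK (X0Emb.FF m), v ≠ MW.cuspInf m → h ∈ v.toValuationSubring) :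
    ∃ H : ℍ → ℂ, IsMF iota (Gamma0 m) 1 H (h : LaurentSeries KK) := by
  obtain ⟨P, hPm, hP⟩ := isIntegral_of_regular hh
  exact mem_AG_of_integral (by rw [FG_eq]; exact h.2) hPm hP

theorem isBoundedAtImInfty_of_lexp {N : ℕ} [NeZero N] {F : ℍ → ℂ} {G : LaurentSeries ℂ}
    (hL : LExp N F G) (hG : ∀ n < 0, G.coeff n = 0) : IsBoundedAtImInfty F := by
  have hN : (0 : ℝ) < N := by exact_mod_cast Nat.pos_of_ne_zero (NeZero.ne N)
  refine isBoundedAtImInfty_of_hasSum_qExpansion hN (c := fun n : ℕ => G.coeff n) fun τ => ?_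
  have := hL.hasSum_nat hG τ
  simpa using this

/-- ... bounded at the cusps different from `∞`. -/
theorem bounded_of_regular {h : X0Emb.FF m}
    (hh : ∀ v : Place KK (X0Emb.FF m), v ≠ MW.cuspInf m → h ∈ v.toValuationSubring)
    {H : ℍ → ℂ} (hH : IsMF iota (Gamma0 m) 1 H (h : LaurentSeries KK)) {γ : SL(2, ℤ)}
    (hγ : γ ∉ Gamma0 m) : IsBoundedAtImInfty (fun τ => H (γ • τ)) := by
  have h1 := (cE_isMF γ hH).lexp
  refine isBoundedAtImInfty_of_lexp h1 fun n hn => ?_
  have h2 : h ∈ cV m γ := hh (cP m γ) (cP_ne hγ)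
  rw [mem_cV, mem_nonneg_iff] at h2
  rw [coeffMap_coeff, h2 n hn, map_zero]

end Fermat.Agent.Dlog3
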