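import Mathlib
import Fermat.Agent.Genus.Forms
import Fermat.Agent.Igusa.Theta
import Fermat.Agent.X0Emb.JExp

/-!
# Weakly holomorphic modular forms of weight two and level one have vanishing constant term
-/

set_option autoImplicit false

open UpperHalfPlane hiding I
open ModularForm Filter Topology
open scoped MatrixGroups Manifold

noncomputable section

namespace Fermat.Agent.Dlog3

open Fermat.Agent.JLevelOne Fermat.Agent.X0Emb Fermat.Agent.Genus ModularCurve

/-- `- j ^ k D j`. -/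
def mono2 (k : ℕ) : ℍ → ℂ := fun τ => jFun τ ^ k * (-(Derivative.normalizedDerivOfComplex jFun τ))

theorem mono2_mul_dl (k : ℕ) : mono2 k * dl ^ (k + 1) = e4 ^ (3 * k + 2) * e6 := by
  funext τ
  have h0 := discriminant_ne_zero τ
  have h1 : jFun τ * discriminant τ = E₄ τ ^ 3 := jFun_mul_discriminant τ
  simp only [mono2, Pi.mul_apply, Pi.pow_apply, dl, e4, e6, D_jFun]
  rw [pow_add (E₄ τ), pow_mul, ← h1, mul_pow, pow_succ]
  field_simp
  ring

theorem mono2_lexp (k : ℕ) :
    LExp 1 (mono2 k) (-(jqModC ℂ ^ k * Igusa.theta (jqModC ℂ))) := by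
  have h1 : LExp 1 (Derivative.normalizedDerivOfComplex jFun) (Igusa.theta (jqModC ℂ)) :=
    Igusa.HasLExp.D Igusa.hasLExp_jFun
  have h2 := ((lexp_jFun.pow k).mul h1).neg
  convert! h2 using 1
  funext τ
  simp [mono2]

theorem coeff_zero_mono2 (k : ℕ) :
    (-(jqModC ℂ ^ k * Igusa.theta (jqModC ℂ))).coeff 0 = 0 := by
  have h1 := Igusa.theta_pow (jqModC ℂ) (k + 1)
  have h2 := congrArg (fun x : LaurentSeries ℂ => x.coeff 0) h1
  simp only [Igusa.theta_coeff, Int.cast_zero, zero_mul, Nat.add_sub_cancel] at h2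
  rw [mul_assoc, Igusa.natCast_mul_coeff] at h2
  rw [HahnSeries.coeff_neg, neg_eq_zero]
  have h3 : ((k + 1 : ℕ) : ℂ) ≠ 0 := by exact_mod_cast Nat.succ_ne_zero k
  exact (mul_eq_zero.mp h2.symm).resolve_left h3

theorem mono_mem (k : ℕ) : e4 ^ (3 * k + 2) * e6 ∈ LF (12 * (k + 1 : ℕ) + 2) := by
  have := LF_mul _ _ _ (LF_pow 4 e4 e4_mem (3 * k + 2)) _ e6_mem
  rwa [show ((3 * k + 2 : ℕ) : ℤ) * 4 + 6 = 12 * (k + 1 : ℕ) + 2 by push_cast; ring] at this

theorem mono_tendsto (k : ℕ) : Tendsto (e4 ^ (3 * k + 2) * e6) atImInfty (𝓝 1) := by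
  have := (e4_tendsto.pow (3 * k + 2)).mul e6_tendsto
  rw [one_pow, one_mul] at this
  exact this

theorem coeff_zero_level_one (k : ℕ) : ∀ (G : ℍ → ℂ) (_ : G * dl ^ k ∈ LF (12 * (k : ℕ) + 2))
    (GG : LaurentSeries ℂ) (_ : LExp 1 G GG), GG.coeff 0 = 0 := by
  induction k with
  | zero =>
    intro G hG GG hL
    have h1 : G = 0 := by
      have := LF_two (G * dl ^ 0) (by simpa using hG)
      simpa using this
    subst h1
    rw [hL.eq_zero one_pos]
    rfl
  | succ k ih =>
    intro G hG GG hL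
    set f : ℍ → ℂ := G * dl ^ (k + 1) with hf
    set c : ℂ := valueAtInfty f with hc
    have h0 : IsZeroAtImInfty (f - c • (e4 ^ (3 * k + 2) * e6)) := by
      have h1 := (LF_tendsto _ f hG).sub ((mono_tendsto k).const_smul c)
      simp only [smul_eq_mul, mul_one] at h1
      have h2 : Tendsto (f - c • (e4 ^ (3 * k + 2) * e6)) atImInfty
        (𝓝 (valueAtInfty f - c)) := h1
      rwa [show valueAtInfty f - c = 0 from sub_self _] at h2
    obtain ⟨g, hg, hfg⟩ := LF_cusp _ _ (sub_mem hG ((LF _).smul_mem c (mono_mem k))) h0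
    have h3 : (G - c • mono2 k) * dl ^ k = g := by
      funext τ
      have h4 := congrFun hfg τ
      have h5 := congrFun (mono2_mul_dl k) τ
      have h6 := dl_ne_zero τ
      simp only [hf, Pi.sub_apply, Pi.mul_apply, Pi.pow_apply, Pi.smul_apply, smul_eq_mul]
        at h4 h5 ⊢
      apply mul_left_cancel₀ h6
      rw [← h4, ← h5]
      ring
    have h7 : (G - c • mono2 k) * dl ^ k ∈ LF (12 * (k : ℕ) + 2) := by
      rw [h3]
      rwa [show (12 * ((k + 1 : ℕ) : ℤ) + 2 - 12) = 12 * (k : ℕ) + 2 by push_cast; ring] at hg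
    have h8 : LExp 1 (G - c • mono2 k)
        (GG - HahnSeries.C c * (-(jqModC ℂ ^ k * Igusa.theta (jqModC ℂ)))) := by
      have := hL.sub ((LExp.const 1 c).mul (mono2_lexp k))
      convert! this using 1
    have h9 := ih _ h7 _ h8
    rw [HahnSeries.coeff_sub, HahnSeries.C_mul_eq_smul, HahnSeries.coeff_smul,
      coeff_zero_mono2, smul_zero, sub_zero] at h9
    exact h9

end Fermat.Agent.Dlog3
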