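import Mathlib
import Fermat.Prelude.Def_FLTPrelim_Modularity
import Fermat.Agent.Dlog3.LevelOne
import Fermat.Agent.Dlog3.CuspPlace
import Fermat.Agent.Genus.Conv
import Fermat.Agent.Genus.Infinity

/-!
# The residue at infinity of `h f` vanishes

Let `f` be a cusp form of weight two on `Γ₀(m)` with integral coefficients and let `h` be an
element of the function field of `X₀(m)` over `ℚ̄` without poles outside `∞`. Then the constant
term of the expansion of `h f` is zero.
-/

set_option autoImplicit false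

open UpperHalfPlane hiding I
open ModularForm Filter Topology AlgebraicCurve CongruenceSubgroup Asymptotics ModularFormClass
open scoped MatrixGroups Manifold

noncomputable section

namespace Fermat.Agent.Dlog3

open Fermat.Agent.JLevelOne Fermat.Agent.X0Emb Fermat.Agent.ModFun Fermat.Agent.FG ModularCurve
  Fermat.Agent.Genus

local notation "𝕢" => Function.Periodic.qParam

/-- A function tending to zero at `i∞` has no constant term. -/
theorem coeff_zero_of_tendsto {F : ℍ → ℂ} {G : LaurentSeries ℂ} (hL : LExp 1 F G)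
    (h : Tendsto F atImInfty (𝓝 0)) : G.coeff 0 = 0 := by
  by_contra hne
  have hG : G ≠ 0 := by rintro rfl; simp at hne
  have hord : G.order ≤ 0 := HahnSeries.order_le_of_coeff_ne_zero hne
  have h1 := GenusInf.tendsto_of_hasSum (f := fun τ => 𝕢 1 (τ : ℂ) ^ (-G.order) * F τ)
    (c := fun k : ℕ => G.coeff (G.order + k)) one_pos
    (fun τ => hL.hasSum_nat (fun n hn => HahnSeries.coeff_eq_zero_of_lt_order hn) τ)
  obtain ⟨k, hk⟩ : ∃ k : ℕ, -G.order = k := ⟨(-G.order).toNat, by omega⟩
  have h2 : Tendsto (fun τ : ℍ => 𝕢 1 (τ : ℂ) ^ (-G.order) * F τ) atImInfty (𝓝 0) := by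
    rw [hk]
    simp only [zpow_natCast]
    refine squeeze_zero_norm (a := fun τ => ‖F τ‖) (fun τ => ?_) (by simpa using h.norm)
    rw [norm_mul, norm_pow]
    exact mul_le_of_le_one_left (norm_nonneg _)
      (pow_le_one₀ (norm_nonneg _) (norm_qParam_lt τ).le)
  have h3 := tendsto_nhds_unique h1 h2
  simp only [Nat.cast_zero, add_zero] at h3
  exact HahnSeries.coeff_order_eq_zero.not.mpr hG h3

theorem growthInf_sum {α : Type*} (s : Finset α) {F : α → ℍ → ℂ}
    (h : ∀ i ∈ s, GrowthInf (F i)) : GrowthInf (∑ i ∈ s, F i) := by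
  classical
  induction s using Finset.induction_on with
  | empty => simpa using! GrowthInf.const 0
  | insert a s ha ih =>
    rw [Finset.sum_insert ha]
    exact (h a (Finset.mem_insert_self _ _)).add (ih fun i hi => h i (Finset.mem_insert_of_mem hi))

theorem slash_sum {α : Type*} (s : Finset α) (F : α → ℍ → ℂ) (k : ℤ) (g : SL(2, ℤ)) :
    (∑ i ∈ s, F i) ∣[k] g = ∑ i ∈ s, (F i ∣[k] g) := by
  classical
  induction s using Finset.induction_on with
  | empty => simp
  | insert a s ha ih => rw [Finset.sum_insert ha, Finset.sum_insert ha, SlashAction.add_slash, ih]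

theorem mul_slash_comp (H f : ℍ → ℂ) (k : ℤ) (g : SL(2, ℤ)) :
    (H * f) ∣[k] g = (fun τ => H (g • τ)) * (f ∣[k] g) := by
  funext τ
  rw [ModularForm.SL_slash_apply, Pi.mul_apply, Pi.mul_apply, ModularForm.SL_slash_apply]
  ring

/-- **"`h f` has residue zero at infinity".** -/
theorem coeff_zero_mul (m : ℕ) [NeZero m] (f : CuspForm (CongruenceSubgroup.Gamma0 m) 2)
    (c : PowerSeries ℤ) (hc : ∀ n, qCoeff ⇑f n = ((c.coeff n : ℤ) : ℂ))
    (h : modularFunctionFieldBar m)
    (hh : ∀ v : Place (AlgebraicClosure ℚ) (modularFunctionFieldBar m), v ≠ MW.cuspInf m →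
      h ∈ v.toValuationSubring) :
    ((h : LaurentSeries (AlgebraicClosure ℚ)) *
      HahnSeries.ofPowerSeries ℤ _ (c.map (Int.castRingHom _))).coeff 0 = 0 := by
  classical
  obtain ⟨H, hH⟩ := exists_isMF_of_regular hh
  have hfs := slash_eq_of_cuspForm (Gamma0 m) f
  -- the expansion of `f`
  have hfL : LExp 1 f (coeffMap iota (HahnSeries.ofPowerSeries ℤ KK
      (c.map (Int.castRingHom KK)))) := by
    have h1 : LExp 1 f (HahnSeries.ofPowerSeries ℤ ℂ (qExpansion 1 f)) := by
      refine LExp.of_hasSum fun τ => ?_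
      have := UpperHalfPlane.hasSum_qExpansion (h := 1) (f := f) one_pos
        (SlashInvariantFormClass.periodic_comp_ofComplex f (by
          rw [strictPeriods_Gamma0]; exact AddSubgroup.mem_zmultiples 1))
        (CuspForm.holo' f) (ModularFormClass.bdd_at_infty f) τ
      simpa using this
    rw [ModularCurve.coeffMap_ofPowerSeries]
    have h2 : qExpansion 1 f = (c.map (Int.castRingHom KK)).map iota := by
      ext n
      have h3 := hc n
      rw [qCoeff] at h3
      rw [h3, PowerSeries.coeff_map, PowerSeries.coeff_map]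
      simp
    rw [← h2]
    exact h1
  set u : ℍ → ℂ := H * f with hu
  have huL : LExp 1 u (coeffMap iota ((h : LaurentSeries KK) *
      HahnSeries.ofPowerSeries ℤ KK (c.map (Int.castRingHom KK)))) := by
    rw [map_mul]
    have h1 := hH.lexp
    rw [Nat.cast_one] at h1
    exact h1.mul hfL
  have hus : ∀ g ∈ Gamma0 m, u ∣[(2 : ℤ)] g = u := by
    intro g hg
    rw [hu, mul_slash_comp, hfs g hg]
    congr 1
    funext τ
    exact hH.inv g hg τ
  set V : SL(2, ℤ) ⧸ Gamma0 m → ℍ → ℂ := toVec (Gamma0 m) u hus with hV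
  have hVmk : ∀ g : SL(2, ℤ), V (QuotientGroup.mk g) =
      (fun τ => H (g⁻¹ • τ)) * (⇑f ∣[(2 : ℤ)] g⁻¹) := by
    intro g
    rw [hV, toVec_mk, hu, mul_slash_comp]
  have hfm : ∀ g : SL(2, ℤ), MDiff (⇑f ∣[(2 : ℤ)] g) := fun g => by
    rw [ModularForm.SL_slash]
    exact (CuspForm.translate f _).holo'
  have hfz : ∀ g : SL(2, ℤ), IsZeroAtImInfty (⇑f ∣[(2 : ℤ)] g) := fun g =>
    CuspFormClass.zero_at_infty_slash f g
  have hVm : ∀ x, MDiff (V x) := by
    intro x
    induction x using QuotientGroup.induction_on with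
    | H g =>
      rw [hVmk]
      have h1 : MDiff (fun τ : ℍ => H (g⁻¹ • τ)) :=
        hH.mdiff.comp (UpperHalfPlane.mdifferentiable_smul (by simp))
      exact h1.mul (hfm g⁻¹)
  have hVg : ∀ x, GrowthInf (V x) := by
    intro x
    induction x using QuotientGroup.induction_on with
    | H g =>
      rw [hVmk]
      exact GrowthInf.mul (hH.growth g⁻¹) (GrowthInf.of_bounded (hfz g⁻¹).isBoundedAtImInfty)
  let _ : Fintype (SL(2, ℤ) ⧸ Gamma0 m) := Subgroup.fintypeQuotientOfFiniteIndex
  set G : ℍ → ℂ := ∑ x, V x with hG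
  have hGm : MDiff G := by
    have : G ∈ Hol := sum_mem fun x _ => hVm x
    exact this
  have hGg : GrowthInf G := growthInf_sum _ fun x _ => hVg x
  have hGs : ∀ g : SL(2, ℤ), G ∣[(2 : ℤ)] g = G := by
    intro g
    rw [hG, slash_sum]
    have h1 : ∀ x, V x ∣[(2 : ℤ)] g = V (g⁻¹ • x) := fun x => toVec_slash (Gamma0 m) u hus x g
    simp only [h1]
    exact Equiv.sum_comp (MulAction.toPerm g⁻¹ : Equiv.Perm (SL(2, ℤ) ⧸ Gamma0 m)) V
  obtain ⟨M, hM⟩ := hGg.bounded_mul_disc
  have hGLF : G * dl ^ M ∈ LF (12 * (M : ℕ) + 2) := by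
    have hd := LF_pow 12 dl dl_mem M
    refine ⟨hGm.mul hd.1, fun g => ?_, hM⟩
    have h1 := ModularForm.mul_slash_SL2 2 (M * 12 : ℤ) g G (dl ^ M)
    rw [hGs, hd.2.1 g] at h1
    rw [show (12 * (M : ℤ) + 2) = 2 + (M * 12 : ℤ) by ring]
    exact h1
  have hGT : ∀ τ : ℍ, G (((1 : ℕ) : ℝ) +ᵥ τ) = G τ := by
    intro τ
    have h1 := congrFun (hGs ModularGroup.T) τ
    have h2 := S21per.slash_T_pow_apply G 2 1 τ
    rw [pow_one] at h2
    rw [← h2, h1]
  obtain ⟨GG, hGG⟩ := exists_lexp (h := 1) hGm hGT hGg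
  rw [Nat.cast_one] at hGG
  have h0 := coeff_zero_level_one M G hGLF GG hGG
  -- the difference
  have hdiff : Tendsto (G - u) atImInfty (𝓝 0) := by
    have h1 : G - u = ∑ x ∈ Finset.univ.erase (QuotientGroup.mk 1 : SL(2, ℤ) ⧸ Gamma0 m), V x := by
      have h2 : V (QuotientGroup.mk 1) = u := by
        rw [hV, toVec_mk, inv_one, SlashAction.slash_one]
      rw [hG, ← Finset.add_sum_erase _ _ (Finset.mem_univ (QuotientGroup.mk 1 :
        SL(2, ℤ) ⧸ Gamma0 m)), h2, add_sub_cancel_left]
    rw [h1]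
    have h2 : ∀ x ∈ Finset.univ.erase (QuotientGroup.mk 1 : SL(2, ℤ) ⧸ Gamma0 m),
        Tendsto (V x) atImInfty (𝓝 0) := by
      intro x hx
      induction x using QuotientGroup.induction_on with
      | H g =>
        rw [hVmk]
        have hg : g⁻¹ ∉ Gamma0 m := by
          intro hg
          rw [Finset.mem_erase] at hx
          apply hx.1
          rw [eq_comm, QuotientGroup.eq, inv_one, one_mul]
          exact inv_mem_iff.mp hg
        exact (bounded_of_regular hh hH hg).mul_zeroAtFilter (hfz g⁻¹)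
    have h3 := tendsto_finsetSum _ h2
    rw [Finset.sum_const_zero] at h3
    convert! h3 using 1
    funext τ
    rw [Finset.sum_apply]
  have h4 := coeff_zero_of_tendsto (hGG.sub huL) hdiff
  rw [HahnSeries.coeff_sub, h0, zero_sub, neg_eq_zero, coeffMap_coeff] at h4
  exact (map_eq_zero iota).mp h4

end Fermat.Agent.Dlog3
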