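import Fermat.Agent.Dlog3.LocalInf
import Fermat.Agent.S27.P1Gaps

/-!
# Duality with the principal parts at one place

Let `v` be a place of the function field `F` with a `q`-expansion.  The series `ψ ∈ q k[[q]]` with
`[q⁰] (h ψ) = 0` for all `h` with poles only at `v` form a space of dimension at most the genus
(its elements are determined by the coefficients at the Weierstrass gaps).
-/

set_option autoImplicit false

noncomputable section

open ModularCurve HahnSeries Module AlgebraicCurve WithZero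
open Fermat.Agent.RR Fermat.Agent.FF

namespace Fermat.Agent.Dlog3

variable {k F : Type*} [Field k] [Field F] [Algebra k F] (e : F →+* LaurentSeries k)
  (v : Place k F)

/-- The series in `q k[[q]]` orthogonal to the functions with poles only at `v`. -/
def annSpace : Submodule k (LaurentSeries k) where
  carrier := {φ | (∀ n ≤ 0, φ.coeff n = 0) ∧
    ∀ h ∈ S27.regOff v, (e h * φ).coeff 0 = 0}
  zero_mem' := ⟨fun n _ => by simp, fun h _ => by simp⟩
  add_mem' := by
    rintro a b ⟨ha, ha'⟩ ⟨hb, hb'⟩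
    refine ⟨fun n hn => ?_, fun h hh => ?_⟩
    · rw [HahnSeries.coeff_add, ha n hn, hb n hn, add_zero]
    · rw [mul_add, HahnSeries.coeff_add, ha' h hh, hb' h hh, add_zero]
  smul_mem' := by
    rintro c a ⟨ha, ha'⟩
    refine ⟨fun n hn => ?_, fun h hh => ?_⟩
    · rw [HahnSeries.coeff_smul, ha n hn, smul_zero]
    · rw [← HahnSeries.C_mul_eq_smul, mul_left_comm, HahnSeries.C_mul_eq_smul,
        HahnSeries.coeff_smul, ha' h hh, smul_zero]

theorem mem_annSpace {φ : LaurentSeries k} : φ ∈ annSpace e v ↔ (∀ n ≤ 0, φ.coeff n = 0) ∧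
    ∀ h ∈ S27.regOff v, (e h * φ).coeff 0 = 0 := Iff.rfl

/-- The coefficients at the gaps. -/
def gapCoeff : LaurentSeries k →ₗ[k] ({n : ℕ | n ∉ S27.poleSemi v} → k) where
  toFun φ n := φ.coeff (n.1 : ℤ)
  map_add' a b := by ext n; simp
  map_smul' c a := by ext n; simp

variable (he : ∀ c : k, e (algebraMap k F c) = algebraMap k (LaurentSeries k) c)
  (hv : ∀ f : F, v.ord f = (e f).order)

include hv in
theorem gapCoeff_injOn {φ : LaurentSeries k} (hφ : φ ∈ annSpace e v)
    (h0 : gapCoeff v φ = 0) : φ = 0 := by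
  by_contra hne
  obtain ⟨h1, h2⟩ := hφ
  have hc : φ.coeff φ.order ≠ 0 := coeff_order_eq_zero.not.mpr hne
  have hpos : 0 < φ.order := by
    by_contra hle
    exact hc (h1 _ (not_lt.mp hle))
  obtain ⟨n, hn⟩ : ∃ n : ℕ, φ.order = n := ⟨φ.order.toNat, by rw [Int.toNat_of_nonneg hpos.le]⟩
  by_cases hg : n ∈ S27.poleSemi v
  · obtain ⟨f, hf, hf0, hfo⟩ := hg
    have h3 := h2 f hf
    have hef : e f ≠ 0 := (map_ne_zero e).mpr hf0
    have h4 : (e f).order + φ.order = 0 := by rw [← hv, hfo, hn]; ring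
    have h5 := coeff_mul_order_add_order (e f) φ
    rw [h4, h3] at h5
    exact mul_ne_zero (leadingCoeff_ne_zero.mpr hef) (leadingCoeff_ne_zero.mpr hne) h5.symm
  · apply hc
    rw [hn]
    exact congrFun h0 ⟨n, hg⟩

variable [IsFF k F] [IsAlgClosed k]

include hv in
theorem finite_annSpace : Module.Finite k (annSpace e v) ∧
    finrank k (annSpace e v) ≤ genusFF k F := by
  have hfin : Finite {n : ℕ | n ∉ S27.poleSemi v} :=
    (inferInstance : S27.Cofin (S27.poleSemi v)).fin.to_subtype
  have : Fintype {n : ℕ | n ∉ S27.poleSemi v} := Fintype.ofFinite _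
  have hinj : Function.Injective ((gapCoeff v).comp (annSpace e v).subtype) := by
    rw [← LinearMap.ker_eq_bot, LinearMap.ker_eq_bot']
    intro φ hφ
    exact Subtype.ext (gapCoeff_injOn e v hv φ.2 hφ)
  refine ⟨Module.Finite.of_injective _ hinj, ?_⟩
  have h1 := LinearMap.finrank_le_finrank_of_injective hinj
  rw [Module.finrank_fintype_fun_eq_card, ← Nat.card_eq_fintype_card] at h1
  rw [← S27.gaps_poleSemi v]
  exact h1

include hv in
/-- A space of `genus` many annihilating series contains every annihilating series. -/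
theorem mem_span_of_annihilates {ι : Type*} [Fintype ι] (b : ι → LaurentSeries k)
    (hb : LinearIndependent k b) (hcard : genusFF k F ≤ Fintype.card ι)
    (hb0 : ∀ i, ∀ n ≤ 0, (b i).coeff n = 0) (n₀ : ℕ)
    (hann : ∀ i, ∀ n ≥ n₀, ∀ h ∈ riemannRochSpace (Finsupp.single v (n : ℤ)),
      (e h * b i).coeff 0 = 0)
    (φ : LaurentSeries k) (hφ0 : ∀ n ≤ 0, φ.coeff n = 0)
    (hφ : ∀ h : F, (∀ w : Place k F, w ≠ v → h ∈ ball w 0) → (e h * φ).coeff 0 = 0) :
    φ ∈ Submodule.span k (Set.range b) := by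
  obtain ⟨hfin, hrank⟩ := finite_annSpace e v hv
  have hle : Submodule.span k (Set.range b) ≤ annSpace e v := by
    rw [Submodule.span_le]
    rintro _ ⟨i, rfl⟩
    refine ⟨hb0 i, fun h hh => ?_⟩
    obtain ⟨N, hN⟩ : ∃ N : ℕ, v.adicValuation h ≤ exp (N : ℤ) := by
      by_cases hh0 : h = 0
      · exact ⟨0, by simp [hh0]⟩
      · refine ⟨(-v.ord h).toNat, ?_⟩
        rw [Place.adicValuation_eq_exp_neg_ord _ hh0, exp_le_exp]
        exact Int.self_le_toNat _
    refine hann i (max n₀ N) (le_max_left _ _) h ?_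
    rw [S27.mem_riemannRochSpace_single]
    refine ⟨hh, hN.trans (exp_le_exp.mpr ?_)⟩
    exact_mod_cast le_max_right n₀ N
  have heq : Submodule.span k (Set.range b) = annSpace e v := by
    refine Submodule.eq_of_le_of_finrank_le hle ?_
    rw [finrank_span_eq_card hb]
    exact hrank.trans hcard
  rw [heq]
  refine ⟨hφ0, fun h hh => hφ h fun w hw => ?_⟩
  have h1 := hh w hw
  rw [mem_ball, exp_zero]
  exact (FF.mem_iff_val_le_one w).1 h1

end Fermat.Agent.Dlog3

end
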