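import Fermat.Agent.X1.GaussGamma0
import Fermat.Agent.X1.GaussWire
import Fermat.Agent.TwoComp.Lp
import Fermat.Agent.Star.InstAux
import Fermat.Agent.S18.Final

/-!
# Integrality of the `q`-expansions of functions without poles outside the cusp `∞`

An element of the Gauss ring which is integral over `A((q))` lies in `A((q))`.
-/

set_option autoImplicit false
set_option linter.unusedSectionVars false

noncomputable section

open ModularCurve HahnSeries Module
open Fermat.Agent.GaussVal
open scoped Polynomial IntermediateField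

namespace Fermat.Agent.Dlog3

section BD

variable {K : Type*} [Field K] {A : ValuationSubring K}

theorem almost_sub {C : LaurentSeries A} {y : LaurentSeries K}
    (h : ∀ n : ℕ, ∃ Z : LaurentSeries A, incl A Z = incl A C * y ^ n) (Y' : LaurentSeries A)
    (n : ℕ) : ∃ Z : LaurentSeries A, incl A Z = incl A C * (y - incl A Y') ^ n := by
  choose Z hZ using h
  refine ⟨∑ i ∈ Finset.range (n + 1), Z i * (-Y') ^ (n - i) * (n.choose i : LaurentSeries A), ?_⟩
  rw [sub_eq_add_neg, add_pow, Finset.mul_sum, map_sum]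
  refine Finset.sum_congr rfl fun i _ => ?_
  rw [map_mul, map_mul, hZ, map_pow, map_neg, map_natCast]
  ring

/-- `A((q))` is completely integrally closed in `K((q))`. -/
theorem exists_incl_of_almost {y : LaurentSeries K} {C : LaurentSeries A} (hC : C ≠ 0)
    (h : ∀ n : ℕ, ∃ Z : LaurentSeries A, incl A Z = incl A C * y ^ n)
    (harch : ∀ c d : K, c ∉ A → d ≠ 0 → ∃ n : ℕ, d * c ^ n ∉ A) : ∃ Y, incl A Y = y := by
  apply exists_incl_of_coeff_mem
  have hC0 : incl A C ≠ 0 := (map_ne_zero_iff _ (incl_injective A)).mpr hC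
  have key : ∀ k : ℕ, y.coeff (y.order + k) ∈ A := by
    intro k
    induction k using Nat.strong_induction_on with
    | _ k ih =>
      by_contra hcA
      -- the truncation
      have hlt : ∀ n : ℤ, n < y.order + k → y.coeff n ∈ A := by
        intro n hn
        rcases lt_or_ge n y.order with h1 | h1
        · rw [coeff_eq_zero_of_lt_order h1]; exact A.zero_mem
        · obtain ⟨i, hi⟩ := Int.eq_ofNat_of_zero_le (sub_nonneg.mpr h1)
          have h2 : n = y.order + (i : ℤ) := by omega
          rw [h2]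
          exact ih i (by omega)
      let Y' : LaurentSeries A :=
        { coeff := fun n => if hn : n < y.order + k then ⟨y.coeff n, hlt n hn⟩ else 0
          isPWO_support' := y.isPWO_support.mono fun n hn hz => hn (by
            change (if hn : n < y.order + k then (⟨y.coeff n, hlt n hn⟩ : A) else 0) = 0
            split_ifs with h1
            · exact Subtype.ext hz
            · rfl) }
      have hY' : ∀ n : ℤ, (incl A Y').coeff n = if n < y.order + k then y.coeff n else 0 := by
        intro n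
        rw [coeffMap_coeff]
        change A.subtype (if hn : n < y.order + k then ⟨y.coeff n, hlt n hn⟩ else 0) = _
        split_ifs <;> rfl
      set z := y - incl A Y' with hz
      have hzc : ∀ n : ℤ, z.coeff n = if n < y.order + k then 0 else y.coeff n := by
        intro n
        rw [hz, HahnSeries.coeff_sub, hY']
        split_ifs <;> ring
      have hzk : z.coeff (y.order + k) = y.coeff (y.order + k) := by
        rw [hzc, if_neg (lt_irrefl _)]
      have hyk0 : y.coeff (y.order + k) ≠ 0 := fun h0 => hcA (by rw [h0]; exact A.zero_mem)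
      have hz0 : z ≠ 0 := by
        intro h0
        rw [h0, HahnSeries.coeff_zero] at hzk
        exact hyk0 hzk.symm
      have hzo : z.order = y.order + k := by
        apply le_antisymm
        · exact order_le_of_coeff_ne_zero (by rw [hzk]; exact hyk0)
        · by_contra hcon
          push Not at hcon
          have h3 := coeff_order_eq_zero.not.mpr hz0
          apply h3
          rw [hzc, if_pos hcon]
      have hzl : z.leadingCoeff = y.coeff (y.order + k) := by
        rw [leadingCoeff_eq, hzo, hzk]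
      have hpow : ∀ n : ℕ, (z ^ n).leadingCoeff = z.leadingCoeff ^ n := by
        intro n
        induction n with
        | zero => simp
        | succ n ih => rw [pow_succ, leadingCoeff_mul, ih, pow_succ]
      obtain ⟨n, hn⟩ := harch _ (incl A C).leadingCoeff hcA (leadingCoeff_ne_zero.mpr hC0)
      apply hn
      obtain ⟨Z, hZ⟩ := almost_sub h Y' n
      rw [← hzl, ← hpow, ← leadingCoeff_mul, ← hZ, leadingCoeff_eq, coeffMap_coeff]
      exact Subtype.property _
  intro n
  rcases lt_or_ge n y.order with h1 | h1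
  · rw [coeff_eq_zero_of_lt_order h1]; exact A.zero_mem
  · obtain ⟨i, hi⟩ := Int.eq_ofNat_of_zero_le (sub_nonneg.mpr h1)
    have h2 : n = y.order + (i : ℤ) := by omega
    rw [h2]
    exact key i

/-- An element of the Gauss ring, integral over `A((q))`, is in `A((q))`. -/
theorem exists_incl_of_integral {y : LaurentSeries K} (hy : y ∈ gaussSubring A)
    {P : (LaurentSeries A)[X]} (hP : P.Monic) (hPy : P.eval₂ (incl A) y = 0)
    (harch : ∀ c d : K, c ∉ A → d ≠ 0 → ∃ n : ℕ, d * c ^ n ∉ A) : ∃ Y, incl A Y = y := by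
  obtain ⟨Y₁, Y₂, hY₂, hy12⟩ := hy
  have hY0 : Y₂ ≠ 0 := by rintro rfl; exact hY₂ (map_zero _)
  set d := P.natDegree with hd
  have hyd : y ^ d = -∑ i ∈ Finset.range d, incl A (P.coeff i) * y ^ i := by
    rw [Polynomial.eval₂_eq_sum_range, Finset.sum_range_succ, ← hd,
      show P.coeff d = 1 from hP.coeff_natDegree, map_one, one_mul] at hPy
    linear_combination hPy
  refine exists_incl_of_almost (C := Y₂ ^ d) (pow_ne_zero _ hY0) (fun n => ?_) harch
  induction n using Nat.strong_induction_on with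
  | _ n ih =>
    rcases lt_or_ge n d with hn | hn
    · refine ⟨Y₂ ^ (d - n) * Y₁ ^ n, ?_⟩
      rw [map_mul, map_pow, map_pow, map_pow, ← hy12, mul_pow]
      have h1 : d = (d - n) + n := by omega
      conv_rhs => rw [h1, _root_.pow_add]
      ring
    · choose Z hZ using fun i : Fin d => ih (n - d + i) (by have := i.2; omega)
      refine ⟨-∑ i : Fin d, P.coeff i * Z i, ?_⟩
      have h1 : y ^ n = y ^ (n - d) * y ^ d := by rw [← _root_.pow_add, Nat.sub_add_cancel hn]
      rw [h1, hyd, map_neg, map_sum, Finset.sum_range, mul_neg, mul_neg, Finset.mul_sum,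
        Finset.mul_sum]
      congr 1
      refine Finset.sum_congr rfl fun i _ => ?_
      rw [map_mul, hZ, _root_.pow_add]
      ring

end BD

section Abs

theorem isIntegral_of_coeff {R F : Type*} [CommRing R] [Field F] [Algebra R F] {x : F}
    (q : F[X]) (hq : q.Monic) (hc : ∀ n, ∃ r : R, algebraMap R F r = q.coeff n)
    (h : q.eval x = 0) : IsIntegral R x := by
  obtain ⟨P, hP1, -, hP2⟩ := Polynomial.lifts_and_natDegree_eq_and_monic
    ((Polynomial.lifts_iff_coeff_lifts (f := algebraMap R F) _).mpr hc) hq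
  exact ⟨P, hP2, by rw [← Polynomial.eval_map, hP1, h]⟩

variable {K F k F' : Type*} [Field K] [Field F] [Algebra K F] [Field k] [Field F']
  [Algebra k F'] (G : Deuring.GaussData K F k F') [FF.IsFF K F]

theorem exists_monic_abs {y : F} (hyK : Transcendental K y) (hyO : y ∈ G.O)
    (htr : Transcendental k (G.ρ ⟨y, hyO⟩)) [FiniteDimensional K⟮y⟯ F]
    [FiniteDimensional k⟮G.ρ ⟨y, hyO⟩⟯ F']
    (hdeg : finrank K⟮y⟯ F = finrank k⟮G.ρ ⟨y, hyO⟩⟯ F')
    (hcoef : ∀ p : K[X], Polynomial.aeval y p ∈ G.O → ∀ n, p.coeff n ∈ G.A) {x : F}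
    (hx : x ∈ G.O) (hxj : IsIntegral (Algebra.adjoin K {y}) x) :
    ∃ P : G.A[X][X], P.Monic ∧ P.eval₂ (X1G.evA G.A y) x = 0 := by
  have h1 := GoodRed.isIntegral_of_mem G (y := y) hyO htr hdeg (f := x) hx
  have h2 : IsIntegral (G.O.comap (algebraMap K⟮y⟯ F)) x := by
    obtain ⟨P, hP, hPx⟩ := h1
    refine isIntegral_of_coeff (P.map (algebraMap _ _)) (hP.map _) (fun n => ?_)
      (by rw [Polynomial.eval_map]; exact hPx)
    have h3 := (P.coeff n).2
    have h4 := GoodRed.Ry_le G hyO htr _ h3
    obtain ⟨a, b, hb, hab⟩ := h3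
    have h5 := GoodRed.ev_ne_zero_of G hyO htr hb
    have h6 : GoodRed.ev G y b ≠ 0 := by
      intro h0
      apply h5
      have : (⟨GoodRed.ev G y b, GoodRed.ev_mem G hyO b⟩ : G.O) = 0 := Subtype.ext h0
      rw [this, map_zero]
    have hmem : ∀ c : G.A[X], GoodRed.ev G y c ∈ K⟮y⟯ := by
      intro c
      rw [GoodRed.ev_eq]
      exact IntermediateField.algebra_adjoin_le_adjoin K {y}
        (Polynomial.aeval_mem_adjoin_singleton K _)
    have h7 : ((P.coeff n : F)) ∈ K⟮y⟯ := by
      have : (P.coeff n : F) = GoodRed.ev G y a / GoodRed.ev G y b := by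
        rw [← hab, mul_div_cancel_left₀ _ h6]
      rw [this]
      exact div_mem (hmem _) (hmem _)
    exact ⟨⟨⟨_, h7⟩, h4⟩, by rw [Polynomial.coeff_map]; rfl⟩
  exact X1G.exists_monic (A := G.A) hyK
    (G.O.comap (algebraMap K⟮y⟯ F)) (fun q z hz hzV n => hcoef q (hz ▸ hzV) n) h2 hxj

end Abs

section Modular

variable {A : ValuationSubring (AlgebraicClosure ℚ)} {p : ℕ} (hp : p.Prime)
  (hA : A.LiesOverPrime p)

include hp hA in
theorem arch' (c d : AlgebraicClosure ℚ) (hc : c ∉ A) (hd : d ≠ 0) :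
    ∃ n : ℕ, d * c ^ n ∉ A := by
  have hc0 : c ≠ 0 := by rintro rfl; exact hc A.zero_mem
  have hci : c⁻¹ ∈ A.nonunits := by
    by_contra h
    rw [mem_nonunits_iff_inv_notMem A (inv_ne_zero hc0), inv_inv] at h
    exact hc h
  by_contra hcon
  push Not at hcon
  -- `c⁻ⁿ d⁻¹ ∈ A` and `d cⁿ⁺¹ ∈ A` give `c ∈ A`
  obtain ⟨n, hn⟩ := Star.Inst.arch hp hA hci d⁻¹
  have h1 := A.mul_mem _ _ hn (hcon (n + 1))
  apply hc
  have h2 : c⁻¹ ^ n * d⁻¹ * (d * c ^ (n + 1)) = c := by
    have h3 : c⁻¹ ^ n * c ^ n = 1 := by rw [← mul_pow, inv_mul_cancel₀ hc0, one_pow]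
    calc c⁻¹ ^ n * d⁻¹ * (d * c ^ (n + 1)) = (c⁻¹ ^ n * c ^ n) * (d⁻¹ * d) * c := by ring
      _ = c := by rw [h3, inv_mul_cancel₀ hd]; ring
  rwa [h2] at h1

/-- the algebraic numbers -/
local notation "𝕂" => AlgebraicClosure ℚ

theorem evA_incl (Y : LaurentSeries A) (P : A[X]) : X1G.evA A (incl A Y) P =
    incl A (Polynomial.eval₂ HahnSeries.C Y P) := by
  rw [X1G.evA, Polynomial.coe_eval₂RingHom, Polynomial.hom_eval₂]
  congr 1
  ext a : 1
  rw [RingHom.comp_apply, RingHom.comp_apply, algebraMap_laurentSeries_eq_single]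
  exact (coeffMap_single _ _ _).symm

variable {N : ℕ} (hd : S18aux.DegEq A N)

include hp hA hd in
/-- **Integrality of `q`-expansions.** -/
theorem exists_incl_of_places {y : modularFunctionFieldBar N} (Y : LaurentSeries A)
    (hY : (y : LaurentSeries 𝕂) = incl A Y)
    (htrY : Transcendental (IsLocalRing.ResidueField A) (redS A Y))
    (hdeg : ∀ (hyO : y ∈ (S18aux.modG hp hA hd).O), finrank 𝕂⟮y⟯ (modularFunctionFieldBar N) =
      finrank (IsLocalRing.ResidueField A)⟮(S18aux.modG hp hA hd).ρ ⟨y, hyO⟩⟯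
        (modularFunctionFieldFullC (IsLocalRing.ResidueField A) N))
    {x : modularFunctionFieldBar N}
    (hx : (x : LaurentSeries 𝕂) ∈ gaussSubring A)
    (hxj : ∀ w : AlgebraicCurve.Place 𝕂 (modularFunctionFieldBar N),
      y ∈ w.toValuationSubring → x ∈ w.toValuationSubring) :
    ∃ X : LaurentSeries A, incl A X = (x : LaurentSeries 𝕂) := by
  have i1 := hd.isFF
  have i2 := hd.isFF'
  set G := S18aux.modG hp hA hd with hG
  have hyO : y ∈ G.O := by
    rw [S18aux.mem_modG_O, hY]
    exact incl_mem _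
  have hρ : (G.ρ ⟨y, hyO⟩ : LaurentSeries (IsLocalRing.ResidueField A)) = redS A Y := by
    rw [S18aux.coe_modG_ρ' hp hA hyO (incl_mem _) hY, gaussRed_incl]
  have htr : Transcendental (IsLocalRing.ResidueField A) (G.ρ ⟨y, hyO⟩) := by
    intro h
    apply htrY
    rw [← hρ]
    exact h.algHom (modularFunctionFieldFullC (IsLocalRing.ResidueField A) N).val
  have hyt : Transcendental 𝕂 y := G.transcendental_of_ρ ⟨y, hyO⟩ htr
  have f1 : FiniteDimensional 𝕂⟮y⟯ (modularFunctionFieldBar N) := FF.IsFF.finite_adjoin y hyt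
  have f2 : FiniteDimensional (IsLocalRing.ResidueField A)⟮G.ρ ⟨y, hyO⟩⟯
      (modularFunctionFieldFullC (IsLocalRing.ResidueField A) N) := FF.IsFF.finite_adjoin _ htr
  obtain ⟨P, hP, hPx⟩ : ∃ P : A[X][X], P.Monic ∧ P.eval₂ (X1G.evA A y) x = 0 :=
    exists_monic_abs G hyt hyO htr (hdeg hyO) (fun q hq n => by
      refine X1G.coeff_mem_of_aeval_mem (A := A) (Y := Y) (y := incl A Y) rfl htrY q ?_ n
      have h8 : ((Polynomial.aeval y q : modularFunctionFieldBar N) : LaurentSeries 𝕂) ∈
          gaussSubring A := hq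
      have h9 : ((Polynomial.aeval y q : modularFunctionFieldBar N) : LaurentSeries 𝕂) =
          Polynomial.aeval (incl A Y) q := by
        rw [← hY]
        exact (Polynomial.aeval_algHom_apply (modularFunctionFieldBar N).val y q).symm
      rwa [h9] at h8) hx (TwoComp.isIntegral_adjoin_iff.mpr hxj)
  have h11 := X1G.map_eval₂_evA (A := A)
    (algebraMap (modularFunctionFieldBar N) (LaurentSeries 𝕂)) (fun c => rfl) y x P
  rw [hPx, map_zero] at h11
  have h12 : algebraMap (modularFunctionFieldBar N) (LaurentSeries 𝕂) y = incl A Y := hY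
  rw [h12] at h11
  refine exists_incl_of_integral hx
    (P := P.map (Polynomial.eval₂RingHom HahnSeries.C Y)) (hP.map _) ?_
    (fun c d hc hd => arch' hp hA c d hc hd)
  rw [Polynomial.eval₂_map]
  refine Eq.trans ?_ h11.symm
  congr 1
  exact RingHom.ext fun a => (evA_incl Y a).symm

theorem redS_jq : redS A (jqModC A) = jqModC (IsLocalRing.ResidueField A) := coeffMap_jqModC _

theorem incl_jq : incl A (jqModC A) = jqModC 𝕂 := coeffMap_jqModC _

include hp hA hd in
theorem exists_incl_j {x : modularFunctionFieldBar N}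
    (hx : (x : LaurentSeries 𝕂) ∈ gaussSubring A)
    (hxj : ∀ w : AlgebraicCurve.Place 𝕂 (modularFunctionFieldBar N),
      jEl 𝕂 (modularFunctionFieldBar N) N (S18aux.bar_eq N) ∈ w.toValuationSubring →
        x ∈ w.toValuationSubring) :
    ∃ X : LaurentSeries A, incl A X = (x : LaurentSeries 𝕂) := by
  have hY : ((jEl 𝕂 (modularFunctionFieldBar N) N (S18aux.bar_eq N) :
      modularFunctionFieldBar N) : LaurentSeries 𝕂) = incl A (jqModC A) := by
    rw [incl_jq]
    exact coe_jEl _ _ N _
  refine exists_incl_of_places hp hA hd (jqModC A) hY (by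
    rw [redS_jq]; exact transcendental_jqModC _) (fun hyO => ?_) hx hxj
  have hρ : (S18aux.modG hp hA hd).ρ ⟨_, hyO⟩ = jEl (IsLocalRing.ResidueField A) _ N rfl := by
    apply Subtype.ext
    rw [S18aux.coe_modG_ρ' hp hA hyO (incl_mem _) hY, gaussRed_incl]
    exact redS_jq
  rw [hρ]
  exact hd.2

/-- the inverse of `j` as an integral series -/
theorem exists_jinv (A : ValuationSubring 𝕂) : ∃ Y : LaurentSeries A, Y * jqModC A = 1 := by
  have h : IsUnit (jqModC A) := by
    rw [HahnSeries.isUnit_iff]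
    have h1 : (jqModC A).leadingCoeff = 1 := by
      have h2 : (jqModC A).order = -1 := X0Emb.order_jqModC A
      rw [leadingCoeff_eq, h2]
      exact coeff_jqModC_neg_one _
    rw [h1]
    exact isUnit_one
  obtain ⟨u, hu⟩ := isUnit_iff_exists_inv'.mp h
  exact ⟨u, hu⟩

include hp hA hd in
theorem exists_incl_jinv {x : modularFunctionFieldBar N}
    (hx : (x : LaurentSeries 𝕂) ∈ gaussSubring A)
    (hxj : ∀ w : AlgebraicCurve.Place 𝕂 (modularFunctionFieldBar N),
      (jEl 𝕂 (modularFunctionFieldBar N) N (S18aux.bar_eq N))⁻¹ ∈ w.toValuationSubring →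
        x ∈ w.toValuationSubring) :
    ∃ X : LaurentSeries A, incl A X = (x : LaurentSeries 𝕂) := by
  obtain ⟨Y, hYj⟩ := exists_jinv A
  have hY1 : incl A Y = (jqModC 𝕂)⁻¹ := by
    have h1 := congrArg (incl A) hYj
    rw [map_mul, map_one, incl_jq] at h1
    exact eq_inv_of_mul_eq_one_left h1
  have hY2 : redS A Y = (jqModC (IsLocalRing.ResidueField A))⁻¹ := by
    have h1 := congrArg (redS A) hYj
    rw [map_mul, map_one, redS_jq] at h1
    exact eq_inv_of_mul_eq_one_left h1
  have hY : (((jEl 𝕂 (modularFunctionFieldBar N) N (S18aux.bar_eq N))⁻¹ :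
      modularFunctionFieldBar N) : LaurentSeries 𝕂) = incl A Y := by
    rw [hY1, ← coe_jEl 𝕂 (modularFunctionFieldBar N) N (S18aux.bar_eq N)]
    rfl
  refine exists_incl_of_places hp hA hd Y hY (by
    rw [hY2]; exact FF.transcendental_inv (transcendental_jqModC _)) (fun hyO => ?_) hx hxj
  have hρ : (S18aux.modG hp hA hd).ρ ⟨_, hyO⟩ =
      (jEl (IsLocalRing.ResidueField A) _ N rfl)⁻¹ := by
    apply Subtype.ext
    rw [S18aux.coe_modG_ρ' hp hA hyO (incl_mem _) hY, gaussRed_incl, hY2,
      ← coe_jEl (IsLocalRing.ResidueField A) _ N rfl]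
    rfl
  have i1 := hd.isFF
  have i2 := hd.isFF'
  rw [hρ, TwoComp.finrank_adjoin_inv, TwoComp.finrank_adjoin_inv]
  exact hd.2

end Modular

end Fermat.Agent.Dlog3
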