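import Fermat.Agent.Residue.FF
import Fermat.Agent.Residue.Stable
import Fermat.Agent.Igusa.Theta
import Fermat.Agent.Moduli.Cusp

/-!
# The residue at the `q`-adic place of a field of Laurent series

In any characteristic, `Res_∞ (f dg)` is the coefficient of `q⁰` of `f · q dg/dq`.
-/

set_option autoImplicit false
set_option linter.unusedSectionVars false

noncomputable section

open ModularCurve HahnSeries Module AlgebraicCurve WithZero KaehlerDifferential
open scoped Polynomial
open Fermat.Agent.RR Fermat.Agent.FF Fermat.Agent.Residue Fermat.Agent.Igusa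

namespace Fermat.Agent.Dlog3

section Stable

variable {K F V : Type*} [Field K] [Field F] [Algebra K F] [AddCommGroup V] [Module K V]

/-- a version of `Res_eq_zero_of_stable` where `B` is only stable under `f` and `g`. -/
theorem Res_eq_zero_of_stable' {A B : Submodule K V} {m : F →ₐ[K] Module.End K V}
    (hA : ∀ f, EE A (m f)) {f g : F} (hBf : ∀ b ∈ B, m f b ∈ B) (hBg : ∀ b ∈ B, m g b ∈ B)
    (hfin : FiniteDimensional K ↥(A ⊓ B)) (hsup : ∀ v, v ∈ A ⊔ B) :
    Res hA (f • D K F g) = 0 := by
  obtain ⟨π, hπ, hπA⟩ := exists_projection_pair A B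
  set q : V →ₗ[K] V := LinearMap.id - π with hq
  have hqx : ∀ x, q x = x - π x := fun _ => rfl
  have hqA : ∀ a ∈ A, q a ∈ A := fun a ha => sub_mem ha (hπA a ha).1
  have hqB : ∀ b ∈ B, q b = 0 := fun b hb => by rw [hqx, hπ.eq b hb, sub_self]
  have h1 : E1 A (q ∘ₗ m f) := by
    refine E1.comp_right (θ := q) ?_ (m f)
    refine ⟨⊥, inferInstance, fun v => ?_⟩
    obtain ⟨a, ha, b, hb, rfl⟩ := Submodule.mem_sup.mp (hsup v)
    rw [map_add, hqB b hb, add_zero, sup_bot_eq]
    exact hqA a ha
  have h2 : E2 A (m f - q ∘ₗ m f) := by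
    have he : m f - q ∘ₗ m f = π ∘ₗ m f := by
      ext x
      change m f x - (m f x - π (m f x)) = π (m f x)
      abel
    rw [he]
    obtain ⟨W', hW', hf⟩ := hA f
    refine Submodule.finiteDimensional_of_le (S₂ := (A ⊓ B) ⊔ W'.map π) ?_
    rintro _ ⟨a, ha, rfl⟩
    obtain ⟨b, hb, w, hw, hbw⟩ := Submodule.mem_sup.mp (hf a ha)
    change π (m f a) ∈ _
    rw [← hbw, map_add]
    exact Submodule.add_mem_sup (hπA b hb) ⟨w, hw, rfl⟩
  rw [Res_eq' hA h1 h2]
  have hval : ∀ x, comm (q ∘ₗ m f) (m g) x = m g (π (m f x)) - π (m f (m g x)) := by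
    intro x
    change (m f (m g x) - π (m f (m g x))) - m g (m f x - π (m f x)) = _
    rw [map_sub, m_comm m f g]
    abel
  refine ftr_eq_zero_of_sq fun x => ?_
  have hy : comm (q ∘ₗ m f) (m g) x ∈ B := by
    rw [hval]
    exact sub_mem (hBg _ (hπ.mem _)) (hπ.mem _)
  rw [hval, hπ.eq _ (hBf _ hy), hπ.eq _ (hBf _ (hBg _ hy)), m_comm m f g, sub_self]

end Stable

section Series

variable {L : Type*} [Field L]

theorem algebraMap_mul_coeff (c : L) (x : LaurentSeries L) (n : ℤ) :
    (algebraMap L (LaurentSeries L) c * x).coeff n = c * x.coeff n := by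
  rw [algebraMap_laurentSeries_eq_single, HahnSeries.coeff_single_zero_mul]

/-- the universal identity `[q⁰] (s^m θ s) = 0`. -/
theorem coeff_zero_pow_mul_theta (m : ℕ) (s : LaurentSeries L) :
    (s ^ m * theta s).coeff 0 = 0 := by
  classical
  let φ : MvPolynomial L ℤ →+* L := (MvPolynomial.aeval (id : L → L)).toRingHom
  have hφ : ∀ a : L, φ (MvPolynomial.X a) = a := fun a => MvPolynomial.aeval_X _ _
  let s' : LaurentSeries (MvPolynomial L ℤ) :=
    { coeff := fun n => if s.coeff n = 0 then 0 else MvPolynomial.X (s.coeff n)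
      isPWO_support' := s.isPWO_support.mono fun n hn h => hn (by simp [h]) }
  have hs' : coeffMap φ s' = s := by
    ext n
    rw [coeffMap_coeff]
    change φ (if s.coeff n = 0 then 0 else MvPolynomial.X (s.coeff n)) = s.coeff n
    split_ifs with h
    · rw [map_zero, h]
    · exact hφ _
  have h1 : (s' ^ m * theta s').coeff 0 = 0 := by
    have h2 := theta_pow s' (m + 1)
    rw [Nat.add_sub_cancel, mul_assoc] at h2
    have h3 := congrArg (fun x : LaurentSeries (MvPolynomial L ℤ) => x.coeff 0) h2
    simp only [theta_coeff, Int.cast_zero, zero_mul] at h3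
    rw [natCast_mul_coeff] at h3
    rcases mul_eq_zero.mp h3.symm with h4 | h4
    · exact absurd h4 (by exact_mod_cast Nat.succ_ne_zero m)
    · exact h4
  rw [← hs', ← map_pow, ← coeffMap_theta, ← map_mul, coeffMap_coeff, h1, map_zero]

theorem order_theta_of_order_one {t : LaurentSeries L} (ht : t.order = 1) :
    (theta t).order = 1 ∧ (theta t).leadingCoeff = t.leadingCoeff := by
  have ht0 : t ≠ 0 := by rintro rfl; rw [order_zero] at ht; exact zero_ne_one ht
  have h1 : (theta t).coeff 1 = t.leadingCoeff := by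
    rw [theta_coeff, leadingCoeff_eq, ht, Int.cast_one, one_mul]
  have h2 : t.leadingCoeff ≠ 0 := leadingCoeff_ne_zero.mpr ht0
  have h3 : theta t ≠ 0 := by
    intro h
    rw [h, coeff_zero] at h1
    exact h2 h1.symm
  have h4 : (theta t).order = 1 := by
    apply le_antisymm
    · exact order_le_of_coeff_ne_zero (by rw [h1]; exact h2)
    · by_contra hlt
      push Not at hlt
      have h5 : (theta t).coeff (theta t).order ≠ 0 := coeff_order_eq_zero.not.mpr h3
      apply h5
      rw [theta_coeff, coeff_eq_zero_of_lt_order (by rw [ht]; exact hlt), mul_zero]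
  exact ⟨h4, by rw [leadingCoeff_eq, h4, h1]⟩

theorem coeff_zero_inv_mul_theta {t : LaurentSeries L} (ht : t.order = 1) :
    (t⁻¹ * theta t).coeff 0 = 1 := by
  have ht0 : t ≠ 0 := by rintro rfl; rw [order_zero] at ht; exact zero_ne_one ht
  obtain ⟨h1, h2⟩ := order_theta_of_order_one ht
  have h3 : (t⁻¹).order = -1 := by rw [MW.order_inv', ht]
  have h4 := coeff_mul_order_add_order t⁻¹ (theta t)
  rw [h1, h3, h2] at h4
  have h5 : (t⁻¹).leadingCoeff * t.leadingCoeff = 1 := by
    have h6 := coeff_mul_order_add_order t⁻¹ t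
    rw [h3, ht, inv_mul_cancel₀ ht0] at h6
    rw [← h6]
    simp
  rw [h5] at h4
  simpa using h4

/-- a nonzero polynomial in a series of order `-1` has order `- natDegree`. -/
theorem coeff_eval₂_of_order {s : LaurentSeries L} (hs : s.order = -1) (p : L[X]) (hp : p ≠ 0) :
    (p.eval₂ (algebraMap L (LaurentSeries L)) s).coeff (-(p.natDegree : ℤ)) ≠ 0 := by
  have hs0 : s ≠ 0 := by rintro rfl; rw [order_zero] at hs; norm_num at hs
  rw [Polynomial.eval₂_eq_sum_range, HahnSeries.coeff_sum, Finset.sum_range_succ, Finset.sum_eq_zero, zero_add]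
  · rw [algebraMap_mul_coeff]
    refine mul_ne_zero (Polynomial.leadingCoeff_ne_zero.mpr hp) ?_
    have h1 : (s ^ p.natDegree).order = -(p.natDegree : ℤ) := by
      rw [order_pow, hs]; simp
    rw [← h1]
    exact coeff_order_eq_zero.not.mpr (pow_ne_zero _ hs0)
  · intro i hi
    rw [algebraMap_mul_coeff, coeff_eq_zero_of_lt_order, mul_zero]
    rw [order_pow, hs, Finset.mem_range] at *
    simp only [nsmul_eq_mul]
    omega

end Series

section Place

variable {L F : Type*} [Field L] [Field F] [Algebra L F] (e : F →+* LaurentSeries L)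
  (he : ∀ c : L, e (algebraMap L F c) = algebraMap L (LaurentSeries L) c)
  (v : Place L F) (hv : ∀ f : F, v.ord f = (e f).order) {t : F} (ht : (e t).order = 1)

include hv in
theorem mem_ball_iff {n : ℤ} {f : F} (hf : f ≠ 0) :
    f ∈ ball v n ↔ -n ≤ (e f).order := by
  rw [mem_ball, Place.adicValuation_eq_exp_neg_ord _ hf, exp_le_exp, hv]
  omega

include he hv ht in
/-- Induction on the order of the pole. -/
theorem pole_induction (P : F → Prop) (hadd : ∀ f g, P f → P g → P (f + g))
    (hsmul : ∀ (c : L) f, P f → P (c • f)) (h0 : ∀ f ∈ ball v 0, P f)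
    (hpow : ∀ n : ℕ, P (t⁻¹ ^ (n + 1))) (f : F) : P f := by
  have hs : (e t⁻¹).order = -1 := by rw [map_inv₀, MW.order_inv', ht]
  have ht0 : e t ≠ 0 := by
    intro h; rw [h, order_zero] at ht; exact zero_ne_one ht
  have hs0 : e t⁻¹ ≠ 0 := by
    intro h; rw [h, order_zero] at hs; norm_num at hs
  have key : ∀ (n : ℕ) (f : F), (f = 0 ∨ -(n : ℤ) ≤ (e f).order) → P f := by
    intro n
    induction n with
    | zero =>
      intro f hf
      apply h0
      rcases hf with rfl | hf
      · exact zero_mem _
      by_cases hf0 : f = 0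
      · rw [hf0]; exact zero_mem _
      rw [mem_ball_iff e v hv hf0]
      simpa using hf
    | succ n ih =>
      intro f hf
      rcases hf with rfl | hf
      · exact ih 0 (Or.inl rfl)
      set s : LaurentSeries L := e t⁻¹ with hsdef
      have hsn : (s ^ (n + 1)).order = -((n : ℤ) + 1) := by
        rw [order_pow, hs]; simp
      set c : L := (e f).coeff (-((n : ℤ) + 1)) /
        (s ^ (n + 1)).coeff (-((n : ℤ) + 1)) with hc
      have hsc : (s ^ (n + 1)).coeff (-((n : ℤ) + 1)) ≠ 0 := by
        rw [← hsn]
        exact coeff_order_eq_zero.not.mpr (pow_ne_zero _ hs0)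
      have hcoe : e (f - c • (t⁻¹ ^ (n + 1))) = e f - algebraMap L _ c * s ^ (n + 1) := by
        rw [Algebra.smul_def, map_sub, map_mul, he, map_pow]
      have h1 : P (f - c • (t⁻¹ ^ (n + 1))) := by
        apply ih
        by_cases h2 : f - c • (t⁻¹ ^ (n + 1)) = 0
        · exact Or.inl h2
        right
        have h2' : e f - algebraMap L _ c * s ^ (n + 1) ≠ 0 := by
          rw [← hcoe]
          exact (map_ne_zero e).mpr h2
        by_contra hlt
        push Not at hlt
        rw [hcoe] at hlt
        have h3 := coeff_order_eq_zero.not.mpr h2'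
        apply h3
        set o := (e f - algebraMap L _ c * s ^ (n + 1)).order with ho
        rw [HahnSeries.coeff_sub, algebraMap_mul_coeff]
        rcases lt_or_eq_of_le (show o ≤ -((n : ℤ) + 1) by omega) with h4 | h4
        · rw [coeff_eq_zero_of_lt_order (by push_cast at hf; omega),
            coeff_eq_zero_of_lt_order (by rw [hsn]; exact h4), mul_zero, sub_zero]
        · rw [h4, hc, div_mul_cancel₀ _ hsc, sub_self]
      have h5 := hadd _ _ h1 (hsmul c _ (hpow n))
      rwa [sub_add_cancel] at h5
  obtain ⟨n, hn⟩ : ∃ n : ℕ, -(n : ℤ) ≤ (e f).order := ⟨((e f).order).natAbs, by omega⟩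
  exact key n f (Or.inr hn)

/-- Laurent series as a module over `F`. -/
def TM (_ : F →+* LaurentSeries L) : Type _ := LaurentSeries L

instance : AddCommGroup (TM e) := inferInstanceAs (AddCommGroup (LaurentSeries L))

instance : Module F (TM e) := Module.compHom (LaurentSeries L) e

instance : Module L (TM e) := Module.compHom (LaurentSeries L) (e.comp (algebraMap L F))

/-- the underlying series -/
def TM.val {e : F →+* LaurentSeries L} (x : TM e) : LaurentSeries L := x

/-- the inverse of `TM.val` -/
def TM.mk (x : LaurentSeries L) : TM e := x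

theorem TM.ext {e : F →+* LaurentSeries L} {x y : TM e} (h : x.val = y.val) : x = y := h

theorem TM.val_smul (f : F) (x : TM e) : (f • x).val = e f * x.val := rfl

theorem TM.val_smulL (c : L) (x : TM e) : (c • x).val = e (algebraMap L F c) * x.val := rfl

theorem TM.val_mk (x : LaurentSeries L) : (TM.mk e x).val = x := rfl

theorem TM.val_add (x y : TM e) : (x + y).val = x.val + y.val := rfl

instance : IsScalarTower L F (TM e) := ⟨fun c f x => TM.ext (by
  rw [TM.val_smul, TM.val_smulL, TM.val_smul, Algebra.smul_def, map_mul, mul_assoc])⟩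

/-- `θ` as a derivation on `F`. -/
def thetaDer : Derivation L F (TM e) :=
  Derivation.mk'
    { toFun := fun f => TM.mk e (theta (e f))
      map_add' := fun f g => TM.ext (by
        rw [map_add, TM.val_add, TM.val_mk, TM.val_mk, TM.val_mk, theta_add])
      map_smul' := fun c f => TM.ext (by
        rw [RingHom.id_apply, TM.val_smulL, TM.val_mk, TM.val_mk, Algebra.smul_def, map_mul, he]
        ext n
        rw [theta_coeff, algebraMap_mul_coeff, algebraMap_mul_coeff, theta_coeff]
        ring) }
    (fun f g => TM.ext (by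
      change theta (e (f * g)) = e f * theta (e g) + e g * theta (e f)
      rw [map_mul, theta_mul]
      ring))

include he in
theorem theta_of_D_eq {g t c : F} (h : D L F g = c • D L F t) :
    theta (e g) = e c * theta (e t) := by
  have h1 := congrArg (thetaDer e he).liftKaehlerDifferential h
  rw [map_smul, Derivation.liftKaehlerDifferential_comp_D,
    Derivation.liftKaehlerDifferential_comp_D] at h1
  exact h1

include hv ht in
theorem adicValuation_t : v.adicValuation t = exp (-1 : ℤ) := by
  have ht0 : t ≠ 0 := by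
    rintro rfl
    rw [map_zero, order_zero] at ht; exact zero_ne_one ht
  rw [Place.adicValuation_eq_exp_neg_ord _ ht0, hv, ht]

variable [IsFF L F]

include he hv ht in
theorem resAt_pow_D (m : ℕ) : resAt v ((t⁻¹) ^ m • D L F (t⁻¹)) = 0 := by
  set s : F := t⁻¹ with hsdef
  have hs : (e s).order = -1 := by rw [map_inv₀, MW.order_inv', ht]
  have hcoe : ∀ p : L[X], e (Polynomial.aeval s p) =
      p.eval₂ (algebraMap L (LaurentSeries L)) (e s) := by
    intro p
    rw [Polynomial.aeval_def, Polynomial.hom_eval₂]
    congr 1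
    exact RingHom.ext he
  set B : Submodule L F := LinearMap.range (Polynomial.aeval s : L[X] →ₐ[L] F).toLinearMap with hB
  refine Res_eq_zero_of_stable' (B := B) _ ?_ ?_ ?_ ?_
  · rintro _ ⟨p, rfl⟩
    refine ⟨Polynomial.X ^ m * p, ?_⟩
    change Polynomial.aeval s (Polynomial.X ^ m * p) = s ^ m * Polynomial.aeval s p
    rw [map_mul, map_pow, Polynomial.aeval_X]
  · rintro _ ⟨p, rfl⟩
    refine ⟨Polynomial.X * p, ?_⟩
    change Polynomial.aeval s (Polynomial.X * p) = s * Polynomial.aeval s p
    rw [map_mul, Polynomial.aeval_X]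
  · refine Submodule.finiteDimensional_of_le (S₂ := Submodule.span L {(1 : F)}) ?_
    rintro _ ⟨hb, p, rfl⟩
    change Polynomial.aeval s p ∈ _
    change Polynomial.aeval s p ∈ ball _ _ at hb
    by_cases hp : p = 0
    · rw [hp, map_zero]; exact zero_mem _
    have h1 := coeff_eval₂_of_order hs p hp
    rw [← hcoe] at h1
    have h2 : Polynomial.aeval s p ≠ 0 := by
      intro h
      rw [h, map_zero] at h1
      exact h1 rfl
    have h3 := (mem_ball_iff e v hv h2).mp hb
    have h4 := order_le_of_coeff_ne_zero h1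
    have h5 : p.natDegree = 0 := by omega
    rw [Polynomial.eq_C_of_natDegree_eq_zero h5, Polynomial.aeval_C, Algebra.algebraMap_eq_smul_one]
    exact Submodule.smul_mem _ _ (Submodule.mem_span_singleton_self _)
  · intro f
    refine pole_induction e he v hv ht (fun f => f ∈ ball v 0 ⊔ B)
      (fun f g hf hg => add_mem hf hg) (fun c f hf => Submodule.smul_mem _ c hf)
      (fun f hf => Submodule.mem_sup_left hf) (fun n => Submodule.mem_sup_right ?_) f
    exact ⟨Polynomial.X ^ (n + 1), by
      change Polynomial.aeval s _ = _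
      rw [map_pow, Polynomial.aeval_X]⟩

variable [IsAlgClosed L]

include he hv ht in
/-- **The residue at the `q`-adic place.** -/
theorem resAt_inf (f g : F) : resAt v (f • D L F g) = (e f * theta (e g)).coeff 0 := by
  have ht0 : t ≠ 0 := by
    rintro rfl
    rw [map_zero, order_zero] at ht; exact zero_ne_one ht
  have hte0 : e t ≠ 0 := (map_ne_zero e).mpr ht0
  have htv := adicValuation_t e v hv ht
  have hDt : D L F t ≠ 0 := D_ne_zero _ htv
  -- the case of `D t`
  have key : ∀ h : F, resAt v (h • D L F t) = (e h * theta (e t)).coeff 0 := by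
    intro h
    refine pole_induction e he v hv ht (fun h => resAt v (h • D L F t) =
      (e h * theta (e t)).coeff 0) ?_ ?_ ?_ ?_ h
    · intro f g hf hg
      rw [add_smul, map_add, hf, hg, ← HahnSeries.coeff_add, ← add_mul, map_add]
    · intro c f hf
      rw [smul_assoc, map_smul, hf, smul_eq_mul, ← algebraMap_mul_coeff, ← mul_assoc,
        Algebra.smul_def c f, map_mul, he]
    · intro f hf
      have h1 : t ∈ ball v 0 := by
        rw [mem_ball, htv]
        exact exp_le_exp.mpr (by norm_num)
      rw [resAt_eq_zero _ hf h1]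
      symm
      by_cases hf0 : f = 0
      · rw [hf0, map_zero, zero_mul, HahnSeries.coeff_zero]
      have h2 := (mem_ball_iff e v hv hf0).mp hf
      obtain ⟨h3, -⟩ := order_theta_of_order_one ht
      apply coeff_eq_zero_of_lt_order
      have h4 : theta (e t) ≠ 0 := by
        intro h; rw [h, order_zero] at h3; exact zero_ne_one h3
      rw [order_mul ((map_ne_zero e).mpr hf0) h4, h3]
      omega
    · intro n
      rcases n with _ | n
      · rw [zero_add, pow_one, resAt_inv_smul_D_eq_one _ htv, map_inv₀, coeff_zero_inv_mul_theta ht]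
      · have h1 : D L F t = (-(t ^ 2)) • D L F t⁻¹ := by
          have h2 := (D L F).leibniz t⁻¹ t
          rw [inv_mul_cancel₀ ht0, (D L F).map_one_eq_zero] at h2
          have h3 := congrArg (fun x => t • x) h2
          simp only [smul_zero, smul_add, smul_smul, mul_inv_cancel₀ ht0, one_smul] at h3
          rw [neg_smul, eq_neg_iff_add_eq_zero, sq]
          exact h3.symm
        have h2 := theta_of_D_eq e he h1
        have h3 : (t⁻¹) ^ (n + 1 + 1) • D L F t = -((t⁻¹) ^ n • D L F t⁻¹) := by
          rw [h1, smul_smul, ← neg_smul]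
          congr 1
          rw [pow_succ, pow_succ]
          field_simp
        rw [h3, map_neg, resAt_pow_D e he v hv ht, neg_zero, h2]
        have h4 : e (t⁻¹ ^ (n + 1 + 1)) * (e (-(t ^ 2)) * theta (e t⁻¹)) =
            -((e t⁻¹) ^ n * theta (e t⁻¹)) := by
          rw [← mul_assoc, ← map_mul, ← neg_mul, ← map_pow, ← map_neg]
          congr 2
          rw [pow_succ, pow_succ]
          field_simp
        rw [h4, HahnSeries.coeff_neg, coeff_zero_pow_mul_theta, neg_zero]
  obtain ⟨c, hc⟩ := rankLeOne_of_isFF L F (D L F t) (D L F g) hDt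
  rw [hc, smul_smul, key, theta_of_D_eq e he hc, ← mul_assoc, map_mul]

include he hv ht in
/-- The residue theorem for differentials with residues only at the `q`-adic place. -/
theorem coeff_zero_of_resAt (f g : F) (h : ∀ w : Place L F, w ≠ v → resAt w (f • D L F g) = 0) :
    (e f * theta (e g)).coeff 0 = 0 := by
  rw [← resAt_inf e he v hv ht, ← finsum_resAt_of_isFF (f • D L F g)]
  exact (finsum_eq_single _ v h).symm

include he hv ht in
/-- Differentials `h dlog f`, with `h` regular and `p ∣ ord f` outside the `q`-adic place. -/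
theorem coeff_zero_dlog (p : ℕ) [CharP L p] {f h : F} (hf : f ≠ 0)
    (hh : ∀ w : Place L F, w ≠ v → h ∈ ball w 0)
    (hd : ∀ w : Place L F, w ≠ v → (p : ℤ) ∣ w.ord f) :
    (e h * (theta (e f) / e f)).coeff 0 = 0 := by
  have key : ∀ w : Place L F, w ≠ v → resAt w ((h * f⁻¹) • D L F f) = 0 := by
    intro w hw
    obtain ⟨k, hk⟩ := hd w hw
    -- a unit
    set π := unif w with hπ
    have hπv := adicValuation_unif w
    have hπ0 : π ≠ 0 := by
      intro h0
      rw [← hπ, h0, map_zero] at hπv
      exact exp_ne_zero hπv.symm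
    set u := f * π ^ (-(p * k : ℤ)) with hu
    have huv : w.adicValuation u = 1 := by
      rw [hu, map_mul, Place.adicValuation_eq_exp_neg_ord _ hf, hk, adicValuation_unif_zpow,
        ← exp_add]
      simp
    have hu0 : u ≠ 0 := mul_ne_zero hf (zpow_ne_zero _ hπ0)
    have hfu : f = (π ^ k) ^ p * u := by
      rw [hu, ← zpow_natCast, ← zpow_mul, mul_comm f, ← mul_assoc, ← zpow_add₀ hπ0]
      rw [show k * (p : ℤ) + -((p : ℤ) * k) = 0 by ring, zpow_zero, one_mul]
    have hD0 : D L F ((π ^ k) ^ p) = 0 := by
      rw [Derivation.leibniz_pow]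
      have : ((p : ℕ) • ((π ^ k) ^ (p - 1) • D L F (π ^ k))) = 0 := by
        rw [← Nat.cast_smul_eq_nsmul L, CharP.cast_eq_zero, zero_smul]
      exact this
    have hD : D L F f = (π ^ k) ^ p • D L F u := by
      conv_lhs => rw [hfu]
      rw [Derivation.leibniz, hD0, smul_zero, add_zero]
    have h1 : (h * f⁻¹) • D L F f = (h * u⁻¹) • D L F u := by
      rw [hD, smul_smul]
      congr 1
      have hπk : (π ^ k) ^ p ≠ 0 := pow_ne_zero _ (zpow_ne_zero _ hπ0)
      rw [hfu]
      field_simp
    rw [h1]
    apply resAt_eq_zero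
    · apply mul_mem_ball_zero _ (hh w hw)
      rw [mem_ball, map_inv₀, huv, inv_one, exp_zero]
    · rw [mem_ball, huv, exp_zero]
  have h2 := coeff_zero_of_resAt e he v hv ht _ _ key
  rw [map_mul, map_inv₀] at h2
  rwa [div_eq_mul_inv, mul_comm (theta (e f)), ← mul_assoc]

end Place

end Fermat.Agent.Dlog3
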