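import Fermat.Agent.Deuring.Red
import Fermat.Agent.Deuring.Genus
import Fermat.Agent.Deuring.DivLemmas
import Fermat.Agent.Dlog3.LocalInf

/-!
# Lifting functions with poles only at the cusp `∞`
-/

set_option autoImplicit false
set_option linter.unusedSectionVars false

noncomputable section

open ModularCurve HahnSeries Module AlgebraicCurve WithZero
open Fermat.Agent.RR Fermat.Agent.FF Fermat.Agent.Deuring

namespace Fermat.Agent.Dlog3

section Eff

variable {K F : Type*} [Field K] [Field F] [Algebra K F] [IsFF K F] [IsAlgClosed K]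

/-- an effective divisor of degree one is a point. -/
theorem eq_single_of_degree_one {D : Divisor K F} (hD : 0 ≤ D) (h : Divisor.degree D = 1) :
    ∃ w : Place K F, D = Finsupp.single w 1 := by
  classical
  have hne : D ≠ 0 := by
    rintro rfl
    rw [map_zero] at h
    exact zero_ne_one h
  obtain ⟨w, hw⟩ := Finsupp.ne_iff.mp hne
  have h1 : 0 ≤ D w := hD w
  have h2 : 1 ≤ D w := by
    simp only [Finsupp.zero_apply] at hw
    omega
  refine ⟨w, ?_⟩
  have h3 : (0 : Divisor K F) ≤ D - Finsupp.single w 1 := by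
    intro v
    rw [Finsupp.sub_apply, Finsupp.zero_apply]
    rcases eq_or_ne v w with rfl | hv
    · rw [Finsupp.single_eq_same]; omega
    · rw [Finsupp.single_eq_of_ne hv, sub_zero]
      exact hD v
  have h4 : Divisor.degree (D - Finsupp.single w 1) = 0 := by
    rw [map_sub, h, degree_single_one, sub_self]
  -- an effective divisor of degree zero vanishes
  have h5 : D - Finsupp.single w 1 = 0 := by
    ext v
    by_contra hv
    have e1 : 0 ≤ (D - Finsupp.single w 1 : Divisor K F) v := h3 v
    have e2 : 1 ≤ (D - Finsupp.single w 1 : Divisor K F) v := by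
      simp only [Finsupp.coe_zero, Pi.zero_apply] at hv
      omega
    have e3 : (0 : Divisor K F) ≤ D - Finsupp.single w 1 - Finsupp.single v 1 := by
      intro u
      rw [Finsupp.sub_apply, Finsupp.zero_apply]
      rcases eq_or_ne u v with rfl | hu
      · rw [Finsupp.single_eq_same]; omega
      · rw [Finsupp.single_eq_of_ne hu, sub_zero]
        exact h3 u
    have e4 := degree_nonneg e3
    rw [map_sub, h4, degree_single_one] at e4
    omega
  exact sub_eq_zero.mp h5

/-- For divisors of large degree there is a function with exact pole order at a given point. -/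
theorem exists_exact {E : Divisor K F} (w : Place K F)
    (hE : 2 * (genusFF K F : ℤ) - 1 < Divisor.degree E) :
    ∃ f : F, f ≠ 0 ∧ f ∈ riemannRochSpace E ∧ w.ord f = -E w := by
  have h1 := ell_large (K := K) (D := E) (by omega)
  have h2 := ell_large (K := K) (D := E - Finsupp.single w 1) (by
    rw [map_sub, degree_single_one]; omega)
  rw [map_sub, degree_single_one] at h2
  have h3 : riemannRochSpace (E - Finsupp.single w 1) ≤ riemannRochSpace E := L_mono (by
    intro v
    rw [Finsupp.sub_apply]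
    classical
    rw [Finsupp.single_apply]
    split_ifs
    · omega
    · omega)
  have h4 : ¬ riemannRochSpace E ≤ riemannRochSpace (E - Finsupp.single w 1) := by
    intro h5
    have h6 : riemannRochSpace E = riemannRochSpace (E - Finsupp.single w 1) :=
      le_antisymm h5 h3
    have h7 : ell E = ell (E - Finsupp.single w 1) := by
      unfold ell
      rw [h6]
    rw [h7] at h1
    omega
  obtain ⟨f, hf, hf'⟩ := SetLike.not_le_iff_exists.mp h4
  have hf0 : f ≠ 0 := by
    rintro rfl
    exact hf' (Submodule.zero_mem _)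
  refine ⟨f, hf0, hf, ?_⟩
  rw [mem_L_iff hf0] at hf
  rw [mem_L_iff hf0] at hf'
  push Not at hf'
  obtain ⟨v, hv⟩ := hf'
  have h8 := hf v
  rw [Finsupp.sub_apply] at hv
  classical
  rw [Finsupp.single_apply] at hv
  split_ifs at hv with h9
  · subst h9
    omega
  · omega

end Eff

section Red

variable {K F k F' : Type*} [Field K] [Field F] [Field k] [Field F'] [Algebra K F] [Algebra k F']
  [IsFF K F] [IsFF k F'] [IsAlgClosed K] [IsAlgClosed k] {G : GaussData K F k F'} (R : RedMap G)
  (v : Place K F) (v' : Place k F')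

/-- The reduction of the `q`-adic place. -/
theorem r_single {D : Divisor K F} (hD : 0 ≤ D) (hDv : D v = 0) (hdeg : 0 < Divisor.degree D)
    (hvv : ∀ (f : F) (hf : f ∈ G.O), (∀ w : Place K F, D w = 0 → f ∈ w.toValuationSubring) →
      1 ≤ v.ord f → G.ρ ⟨f, hf⟩ ≠ 0 → 1 ≤ v'.ord (G.ρ ⟨f, hf⟩)) :
    R.r (Finsupp.single v 1) = Finsupp.single v' 1 := by
  classical
  obtain ⟨w, hw⟩ := eq_single_of_degree_one (R.nonneg _ (single_nonneg v))
    (by rw [R.degree_r, degree_single_one])
  rw [hw]
  by_contra hne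
  have hwv : w ≠ v' := by
    rintro rfl
    exact hne rfl
  -- a large multiple of `D`
  set c : ℕ := (max R.n₀ (2 * (genusFF k F' : ℤ))).toNat + 2 with hc
  have hc1 : R.n₀ ≤ (c : ℤ) - 1 := by
    have h1 := le_max_left R.n₀ (2 * (genusFF k F' : ℤ))
    have h2 := Int.self_le_toNat (max R.n₀ (2 * (genusFF k F' : ℤ)))
    rw [hc]; push_cast; omega
  have hc2 : 2 * (genusFF k F' : ℤ) < (c : ℤ) - 1 := by
    have h1 := le_max_right R.n₀ (2 * (genusFF k F' : ℤ))
    have h2 := Int.self_le_toNat (max R.n₀ (2 * (genusFF k F' : ℤ)))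
    rw [hc]; push_cast; omega
  have hcD : (c : ℤ) ≤ Divisor.degree (c • D) := by
    rw [map_nsmul, nsmul_eq_mul]
    nlinarith
  set E := R.r (c • D - Finsupp.single v 1) with hE
  have hdegE : Divisor.degree E = Divisor.degree (c • D) - 1 := by
    rw [hE, R.degree_r, map_sub, degree_single_one]
  have hEv : 0 ≤ E v' := by
    rw [hE, map_sub, map_nsmul, hw, Finsupp.sub_apply, Finsupp.single_eq_of_ne (Ne.symm hwv), sub_zero,
      Finsupp.smul_apply]
    exact nsmul_nonneg (R.nonneg _ hD v') _
  obtain ⟨g, hg0, hg, hgv⟩ := exists_exact v' (E := E) (by rw [hdegE]; omega)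
  rw [hE, ← R.redSpace_L _ (by
    rw [map_sub, degree_single_one]; omega)] at hg
  obtain ⟨f, hf, hfO, rfl⟩ := hg
  have hf0 : f ≠ 0 := by
    rintro rfl
    exact hg0 (map_zero G.ρ)
  have h1 : 1 ≤ v.ord f := by
    have h2 := (mem_L_iff hf0).mp hf v
    rw [Finsupp.sub_apply, Finsupp.smul_apply, hDv, smul_zero, Finsupp.single_eq_same] at h2
    omega
  have h3 := hvv f hfO (fun w hw0 => by
    rw [FF.mem_iff_ord_nonneg w hf0]
    have h2 := (mem_L_iff hf0).mp hf w
    rw [Finsupp.sub_apply, Finsupp.smul_apply, hw0, smul_zero] at h2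
    have h4 : (0 : ℤ) ≤ (Finsupp.single v 1 : Divisor K F) w := single_nonneg v w
    omega) h1 hg0
  omega

/-- Lifting. -/
theorem exists_lift {D : Divisor K F} (hD : 0 ≤ D) (hDv : D v = 0)
    (hdeg : 0 < Divisor.degree D)
    (hvv : ∀ (f : F) (hf : f ∈ G.O), (∀ w : Place K F, D w = 0 → f ∈ w.toValuationSubring) →
      1 ≤ v.ord f → G.ρ ⟨f, hf⟩ ≠ 0 → 1 ≤ v'.ord (G.ρ ⟨f, hf⟩)) (n : ℤ)
    (hn : R.n₀ ≤ n) {h : F'} (hh : h ∈ riemannRochSpace (Finsupp.single v' n)) :
    ∃ (f : F) (hf : f ∈ G.O), f ∈ riemannRochSpace (Finsupp.single v n) ∧ G.ρ ⟨f, hf⟩ = h := by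
  have h1 := r_single R v v' hD hDv hdeg hvv
  have h2 : R.r (Finsupp.single v n) = Finsupp.single v' n := by
    have e1 : (Finsupp.single v n : Divisor K F) = n • Finsupp.single v 1 := by
      rw [Finsupp.smul_single, smul_eq_mul, mul_one]
    have e2 : (Finsupp.single v' n : Divisor k F') = n • Finsupp.single v' 1 := by
      rw [Finsupp.smul_single, smul_eq_mul, mul_one]
    rw [e1, map_zsmul, h1, e2]
  rw [← h2, ← R.redSpace_L _ (by rw [degree_single_one]; exact hn)] at hh
  obtain ⟨f, hf, hfO, hfh⟩ := hh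
  exact ⟨f, hfO, hf, hfh⟩

end Red

end Fermat.Agent.Dlog3
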