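import Fermat.Agent.Dlog3.Duality
import Fermat.Agent.Dlog3.CharZero
import Fermat.Agent.Dlog3.Integral
import Fermat.Agent.Dlog3.Lift
import Fermat.Agent.Dlog.Concrete

/-!
# `dlog f` is a cusp form mod `p` (every prime `p`, every level prime to `p`)
-/

set_option autoImplicit false

noncomputable section

open ModularCurve HahnSeries Module AlgebraicCurve
open Fermat.Agent.X0Emb Fermat.Agent.GaussVal Fermat.Agent.Deuring Fermat.Agent.FF
open Fermat.Agent.GoodRed Fermat.Agent.S44w Fermat.Agent.RR
open Fermat.Agent.S18aux (DegThm DegEq bar_eq modG)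
open scoped MatrixGroups IntermediateField Fermat.Agent.GaussVal

namespace Fermat.Agent.Dlog3

/-- the algebraic numbers -/
local notation "𝕂" => AlgebraicClosure ℚ

variable {p : ℕ} {A : ValuationSubring 𝕂} (hp : p.Prime) (hA : A.LiesOverPrime p)
variable {N : ℕ} [NeZero N]

/-- the residue field -/
local notation "κ" => IsLocalRing.ResidueField A

theorem ord_cuspInf' (f : modularFunctionFieldBar N) :
    (MW.cuspInf N).ord f = (f : LaurentSeries 𝕂).order := by
  refine Moduli.ord_infPlace (MW.exists_order_neg N) (t := (X0Emb.jF N)⁻¹) ?_ f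
  rw [show (((X0Emb.jF N)⁻¹ : modularFunctionFieldBar N) : LaurentSeries 𝕂) =
    ((X0Emb.jF N : modularFunctionFieldBar N) : LaurentSeries 𝕂)⁻¹ from rfl,
    MW.order_inv', X0Emb.coe_jF, X0Emb.order_jqModC, neg_neg]

theorem order_jB' (A : ValuationSubring 𝕂) (N : ℕ) :
    ((jB A N : modularFunctionFieldFullC (IsLocalRing.ResidueField A) N) :
      LaurentSeries (IsLocalRing.ResidueField A)).order = -1 :=
  X0Emb.order_jqModC (IsLocalRing.ResidueField A)

/-- the place `∞` of the special fibre -/
def inf' (A : ValuationSubring 𝕂) (N : ℕ) : Place (IsLocalRing.ResidueField A)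
    (modularFunctionFieldFullC (IsLocalRing.ResidueField A) N) :=
  MW.infPlace (modularFunctionFieldFullC (IsLocalRing.ResidueField A) N)
    ⟨jB A N, by rw [order_jB']; norm_num⟩

theorem order_inv_coe {k : Type*} [Field k] (F : IntermediateField k (LaurentSeries k)) (x : F) :
    ((x⁻¹ : F) : LaurentSeries k).order = -(x : LaurentSeries k).order := by
  rw [show ((x⁻¹ : F) : LaurentSeries k) = (x : LaurentSeries k)⁻¹ from rfl, MW.order_inv']

/-- the place `∞`, abstractly. -/
theorem ord_infPlace_inv {k : Type*} [Field k] (F : IntermediateField k (LaurentSeries k))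
    (hF : ∃ h : F, (h : LaurentSeries k).order < 0) {x : F}
    (hx : (x : LaurentSeries k).order = -1) (g : F) :
    (MW.infPlace F hF).ord g = (g : LaurentSeries k).order :=
  Moduli.ord_infPlace hF (t := x⁻¹) (by rw [order_inv_coe, hx, neg_neg]) g

theorem ord_inf' (A : ValuationSubring 𝕂) (N : ℕ)
    (g : modularFunctionFieldFullC (IsLocalRing.ResidueField A) N) :
    (inf' A N).ord g = (g : LaurentSeries (IsLocalRing.ResidueField A)).order :=
  ord_infPlace_inv (modularFunctionFieldFullC (IsLocalRing.ResidueField A) N) _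
    (x := jB A N) (order_jB' A N) g

omit [NeZero N] in
theorem coe_jEl_bar : ((jEl 𝕂 (modularFunctionFieldBar N) N (bar_eq N) :
    modularFunctionFieldBar N) : LaurentSeries 𝕂) = jqModC 𝕂 := coe_jEl _ _ N _

theorem ord_cuspInf_j :
    (MW.cuspInf N).ord (jEl 𝕂 (modularFunctionFieldBar N) N (bar_eq N)) = -1 := by
  rw [ord_cuspInf', coe_jEl_bar, X0Emb.order_jqModC]

include hp hA in
/-- the reduction of a function whose poles lie above `j = 0` and which vanishes at `∞` -/
theorem ord_red (hd : DegEq A N) {f : modularFunctionFieldBar N} (hf : f ∈ (modG hp hA hd).O)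
    (hfj : ∀ w : Place 𝕂 (modularFunctionFieldBar N),
      (jEl 𝕂 (modularFunctionFieldBar N) N (bar_eq N))⁻¹ ∈ w.toValuationSubring →
        f ∈ w.toValuationSubring)
    (h1 : 1 ≤ (MW.cuspInf N).ord f) (h0 : (modG hp hA hd).ρ ⟨f, hf⟩ ≠ 0) :
    1 ≤ (inf' A N).ord ((modG hp hA hd).ρ ⟨f, hf⟩) := by
  obtain ⟨X, hX⟩ := exists_incl_jinv hp hA hd hf hfj
  have hρ : ((modG hp hA hd).ρ ⟨f, hf⟩ : LaurentSeries κ) = redS A X := by
    rw [S18aux.coe_modG_ρ' hp hA hf (incl_mem X) hX.symm, gaussRed_incl]
  rw [ord_inf', hρ]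
  have h2 : redS A X ≠ 0 := by
    rw [← hρ]
    exact fun h => h0 (Subtype.ext h)
  rw [ord_cuspInf', ← hX] at h1
  by_contra hcon
  push Not at hcon
  have h3 := coeff_order_eq_zero.not.mpr h2
  apply h3
  rw [coeffMap_coeff]
  have h4 : X.coeff (redS A X).order = 0 := by
    have h5 : (incl A X).coeff (redS A X).order = 0 :=
      coeff_eq_zero_of_lt_order (by omega)
    rw [coeffMap_coeff] at h5
    exact Subtype.ext h5
  rw [h4, map_zero]

include hp hA in
/-- **Lifting** functions with poles only at `∞`. -/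
theorem exists_lift_inf (hN : ¬ p ∣ N) : ∃ n₀ : ℕ, ∀ n ≥ n₀,
    ∀ h : modularFunctionFieldFullC κ N,
      h ∈ riemannRochSpace (Finsupp.single (inf' A N) (n : ℤ)) →
    ∃ (f : modularFunctionFieldBar N) (X : LaurentSeries A),
      (∀ v : Place 𝕂 (modularFunctionFieldBar N), v ≠ MW.cuspInf N → f ∈ v.toValuationSubring) ∧
      (f : LaurentSeries 𝕂) = incl A X ∧ (h : LaurentSeries κ) = redS A X := by
  have hN0 : N ≠ 0 := NeZero.ne N
  have hd : DegEq A N := degEq_all hp hA hN0 hN
  have H2 := genus_le_all hp hA N hN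
  have i1 := hd.isFF
  have i2 := hd.isFF'
  obtain ⟨R, -⟩ := (modG hp hA hd).exists_redMap_of_le H2
  refine ⟨R.n₀.toNat, fun n hn h hh => ?_⟩
  set y := jEl 𝕂 (modularFunctionFieldBar N) N (bar_eq N) with hy
  have hyt : Transcendental 𝕂 y := transcendental_jEl _ _ N _
  have hy0 : y ≠ 0 := by
    rintro h0
    rw [h0] at hyt
    exact hyt isAlgebraic_zero
  have hf1 : FiniteDimensional 𝕂⟮y⟯ (modularFunctionFieldBar N) := hd.fin
  obtain ⟨f, hfO, hf, hfh⟩ := exists_lift R (MW.cuspInf N) (inf' A N)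
    (D := pole (y⁻¹ : modularFunctionFieldBar N)) (fun w => by
      rw [pole_apply]
      exact le_max_right _ _) (by
      rw [pole_apply, Place.ord_inv, ord_cuspInf_j]
      norm_num) (by
      rw [degree_pole (FF.transcendental_inv hyt), TwoComp.finrank_adjoin_inv]
      exact_mod_cast hd.1) (fun f hf hfw h1 h0 => ord_red hp hA hd hf (fun w hw => hfw w (by
        rw [pole_apply, max_eq_right]
        have := (FF.mem_iff_ord_nonneg w (inv_ne_zero hy0)).mp hw
        omega)) h1 h0) n ((Int.self_le_toNat _).trans (by exact_mod_cast hn)) hh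
  have hreg : ∀ v : Place 𝕂 (modularFunctionFieldBar N), v ≠ MW.cuspInf N →
      f ∈ v.toValuationSubring := by
    intro v hv
    rw [mem_iff_adicValuation_le_one]
    have h2 := hf v
    rwa [Finsupp.single_eq_of_ne hv, WithZero.exp_zero] at h2
  obtain ⟨X, hX⟩ := exists_incl_j hp hA hd hfO (fun w hw => hreg w (by
    rintro rfl
    have := (FF.mem_iff_ord_nonneg (MW.cuspInf N) hy0).mp hw
    rw [ord_cuspInf_j] at this
    norm_num at this))
  refine ⟨f, X, hreg, hX.symm, ?_⟩
  rw [← hfh, S18aux.coe_modG_ρ' hp hA hfO (incl_mem X) hX.symm, gaussRed_incl]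

theorem theta_div_coeff {k : Type*} [Field k] {x : LaurentSeries k} (hx : x ≠ 0)
    (h : ((x.order : ℤ) : k) = 0) {n : ℤ} (hn : n ≤ 0) : (dlog x).coeff n = 0 := by
  rw [dlog]
  by_cases h0 : Igusa.theta x = 0
  · rw [h0, zero_div, HahnSeries.coeff_zero]
  have hy : Igusa.theta x / x ≠ 0 := div_ne_zero h0 hx
  have h1 : (Igusa.theta x / x * x).order = (Igusa.theta x / x).order + x.order :=
    HahnSeries.order_mul hy hx
  rw [div_mul_cancel₀ _ hx] at h1
  have h2 : x.order < (Igusa.theta x).order := by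
    by_contra hcon
    push Not at hcon
    apply coeff_order_eq_zero.not.mpr h0
    rw [Igusa.theta_coeff]
    rcases hcon.lt_or_eq with h3 | h3
    · rw [coeff_eq_zero_of_lt_order h3, mul_zero]
    · rw [h3, h, zero_mul]
  exact coeff_eq_zero_of_lt_order (by omega)

omit [NeZero N] in
theorem redL_coeff_nonpos (k : Type*) [Field k] (f : LZ N) {n : ℤ} (hn : n ≤ 0) :
    (redL k f).coeff n = 0 := by
  rcases hn.lt_or_eq with h | rfl
  · exact redL_coeff_neg k f h
  · have h1 := redL_coeff k f 0
    rw [Nat.cast_zero] at h1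
    rw [h1, coefZ_eq (m := 0) (by
      rw [Int.cast_zero]
      exact CuspFormClass.qExpansion_coeff_zero f.1 one_pos (by
        rw [CongruenceSubgroup.strictPeriods_Gamma0]
        exact AddSubgroup.mem_zmultiples 1)), Int.cast_zero]

include hp hA in
/-- The reductions of the integral cusp forms annihilate the functions which are regular outside
`∞`. -/
theorem coeff_zero_redL (hN : ¬ p ∣ N) : ∃ n₀ : ℕ, ∀ g : LZ N, ∀ n ≥ n₀,
    ∀ h : modularFunctionFieldFullC κ N,
      h ∈ riemannRochSpace (Finsupp.single (inf' A N) (n : ℤ)) →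
      ((h : LaurentSeries κ) * redL κ g).coeff 0 = 0 := by
  obtain ⟨n₀, hn₀⟩ := exists_lift_inf (N := N) hp hA hN
  refine ⟨n₀, fun g n hn h hh => ?_⟩
  obtain ⟨f, X, hf, hX, hred⟩ := hn₀ n hn h hh
  have h1 := coeff_zero_mul N g.1 (PowerSeries.mk fun n => coefZ n g)
    (fun n => by rw [PowerSeries.coeff_mk, coefZ_spec]) f hf
  have h2 : HahnSeries.ofPowerSeries ℤ 𝕂 ((PowerSeries.mk fun n => coefZ n g).map
      (Int.castRingHom 𝕂)) = incl A (Dlog.redA A g) := by
    rw [Dlog.incl_redA, redL_apply]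
    congr 1
  rw [h2, hX, ← map_mul, coeffMap_coeff] at h1
  have h3 : (X * Dlog.redA A g).coeff 0 = 0 := Subtype.ext h1
  rw [hred, ← Dlog.redS_redA, ← map_mul, coeffMap_coeff, h3, map_zero]

include hp hA in
/-- **(G2)** A function on the special fibre of `X₀(N)` whose divisor is divisible by `p` has a
logarithmic derivative which is a cusp form of weight two modulo `p`: every prime `p`. -/
theorem dlog_mem_span (hN : ¬ p ∣ N) {f : modularFunctionFieldFullC κ N} (hf : f ≠ 0)
    (hord : ∀ P : Place κ (modularFunctionFieldFullC κ N), (p : ℤ) ∣ P.ord f) :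
    dlog (f : LaurentSeries κ) ∈ Submodule.span κ (Set.range (redL κ (M := N))) := by
  have i0 : Fact p.Prime := ⟨hp⟩
  have i3 : CharP κ p := TEll.charP_residueField A p hA
  have hN0 : N ≠ 0 := NeZero.ne N
  have hd : DegEq A N := degEq_all hp hA hN0 hN
  have i1 := hd.isFF
  have i2 := hd.isFF'
  obtain ⟨n₀, hn₀⟩ := coeff_zero_redL (N := N) hp hA hN
  set b := Module.Free.chooseBasis ℤ (LZ N) with hb
  have hcard : genusFF κ (modularFunctionFieldFullC κ N) ≤
      Fintype.card (Module.Free.ChooseBasisIndex ℤ (LZ N)) := by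
    rw [← Module.finrank_eq_card_chooseBasisIndex]
    exact (modG hp hA hd).genus_le.trans (Dlog.genus_le_finrank N)
  have key := mem_span_of_annihilates
    (algebraMap (modularFunctionFieldFullC κ N) (LaurentSeries κ)) (inf' A N)
    (fun g => ord_inf' A N g) (fun i => redL κ (b i)) (linearIndependent_redL κ p b) hcard
    (fun i n hn => redL_coeff_nonpos κ (b i) hn) n₀
    (fun i n hn h hh => hn₀ (b i) n hn h hh) (dlog (f : LaurentSeries κ))
    (fun n hn => theta_div_coeff (by
      intro h
      exact hf (Subtype.ext h)) (by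
      obtain ⟨c, hc⟩ := hord (inf' A N)
      rw [← ord_inf' A N f, hc, Int.cast_mul, Int.cast_natCast, CharP.cast_eq_zero, zero_mul]) hn)
    (fun h hh => coeff_zero_dlog
      (algebraMap (modularFunctionFieldFullC κ N) (LaurentSeries κ)) (fun c => rfl)
      (inf' A N) (fun g => ord_inf' A N g) (t := (jB A N)⁻¹)
      (by
        rw [show algebraMap (modularFunctionFieldFullC κ N) (LaurentSeries κ) (jB A N)⁻¹ =
          (((jB A N)⁻¹ : modularFunctionFieldFullC κ N) : LaurentSeries κ) from rfl,
          order_inv_coe, order_jB', neg_neg]) p hf hh (fun w _ => hord w))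
  refine Submodule.span_mono ?_ key
  rintro _ ⟨i, rfl⟩
  exact ⟨b i, rfl⟩

end Fermat.Agent.Dlog3

end
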